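import Fermat.Agent.H94.EsA.Interfaces2

/-!
# P-ES / ES-A/FIN (helper50): the group of Kummer characters is finite

`Γ₀(N)` is finitely generated (finite index in `SL(2,ℤ) = ⟨S, T⟩`, Schreier's lemma), and a
character of exponent `m` is determined by its values (`m`-th roots of unity) on a finite
generating set.
-/

set_option autoImplicit false

open scoped MatrixGroups

namespace Fermat.Agent.H50

/-- `SL(2,ℤ)` is finitely generated. -/
theorem sl2Z_fg : Group.FG SL(2, ℤ) :=
  Group.fg_iff.mpr ⟨{ModularGroup.S, ModularGroup.T}, SpecialLinearGroup.SL2Z_generators,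
    by simp⟩

/-- `Γ₀(N)` is finitely generated. -/
theorem gamma0_fg (N : ℕ) [NeZero N] : Group.FG ↥(CongruenceSubgroup.Gamma0 N) := by
  have := sl2Z_fg
  exact Subgroup.fg_of_index_ne_zero _

/-- For a finitely generated group, the characters of exponent `m > 0` with values in the units
of an integral domain form a finite set. -/
theorem finite_torsion_chars (G : Type*) [Group G] [hG : Group.FG G] (R : Type*) [CommRing R]
    [IsDomain R] (m : ℕ) (hm : 0 < m) : Finite {χ : G →* Rˣ // χ ^ m = 1} := by
  obtain ⟨S, hS, hSfin⟩ := Group.fg_iff.mp hG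
  have : NeZero m := ⟨hm.ne'⟩
  have : Finite S := hSfin.to_subtype
  let F : {χ : G →* Rˣ // χ ^ m = 1} → (S → rootsOfUnity m R) := fun χ s =>
    ⟨χ.1 s, by
      rw [mem_rootsOfUnity]
      have := congrArg (fun ψ : G →* Rˣ => ψ (s : G)) χ.2
      simpa using this⟩
  apply Finite.of_injective F
  intro χ ψ h
  apply Subtype.ext
  apply MonoidHom.eq_of_eqOn_dense hS
  intro s hs
  have := congrFun h ⟨s, hs⟩
  exact congrArg Subtype.val this

/-- **ES-A/FIN**: the group of Kummer characters of `Γ₀(N)` of exponent `m` is finite. -/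
theorem kummerCharsFinite (N : ℕ) [NeZero N] :
    Fermat.Agent.H94.EsA.KummerCharsFiniteStatement N := by
  intro m hm
  have := gamma0_fg N
  have := finite_torsion_chars ↥(CongruenceSubgroup.Gamma0 N) ℂ m hm
  let F : ↥(Fermat.Agent.H94.EsA.kummerChars N m) →
      {χ : ↥(CongruenceSubgroup.Gamma0 N) →* ℂˣ // χ ^ m = 1} :=
    fun χ => ⟨χ.1, χ.2.2⟩
  apply Finite.of_injective F
  intro χ ψ h
  apply Subtype.ext
  have h' : (F χ).1 = (F ψ).1 := congrArg Subtype.val h
  exact h'

end Fermat.Agent.H50
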