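import Mathlib
import Fermat.Agent.H61.GenAn1

/-!
# P-ES / ES-A/LOC (helper50): local lemmas on the upper half plane, Mathlib-only cores

* `deriv_zpow_eq_of_comp_eq_mul` / `mul_denom_sq_pow_eq_one`: multiplier lemma with a constant.
* `exists_order_pow`: order of a power of a holomorphic function.
* `exists_root_of_unity_of_pow_eq`: two holomorphic functions on `ℍ` with the same `m`-th power
  differ by an `m`-th root of unity.
-/

set_option autoImplicit false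

noncomputable section

open UpperHalfPlane Filter Topology
open scoped MatrixGroups Manifold

namespace Fermat.Agent.H50

/-- Abstract multiplier lemma with a constant: if `F` has order `n` at `z₀`, `φ` is analytic at
`z₀`, fixes `z₀`, has nonzero derivative there and `F ∘ φ = c • F` near `z₀`, then
`(φ' z₀) ^ n = c`. -/
lemma deriv_zpow_eq_of_comp_eq_mul {F φ : ℂ → ℂ} {z₀ : ℂ} {n : ℤ} {c : ℂ}
    (hF : MeromorphicAt F z₀) (hn : meromorphicOrderAt F z₀ = n)
    (hφ : AnalyticAt ℂ φ z₀) (hφ0 : φ z₀ = z₀) (hφ' : deriv φ z₀ ≠ 0)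
    (hinv : ∀ᶠ z in 𝓝[≠] z₀, F (φ z) = c * F z) :
    (deriv φ z₀) ^ n = c := by
  obtain ⟨u, hu, hu0, hFu⟩ := (meromorphicOrderAt_eq_int_iff hF).mp hn
  have hnc : ¬ EventuallyConst φ (𝓝 z₀) := by
    have h1 : analyticOrderAt (fun z => φ z - φ z₀) z₀ = 1 :=
      hφ.analyticOrderAt_sub_eq_one_of_deriv_ne_zero hφ'
    rw [eventuallyConst_iff_analyticOrderAt_sub_eq_top, h1]
    simp
  have hmap : Tendsto φ (𝓝[≠] z₀) (𝓝[≠] z₀) := by
    have := hφ.map_nhdsNE hnc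
    rw [hφ0] at this
    exact this
  have hFφ : ∀ᶠ z in 𝓝[≠] z₀, F (φ z) = (φ z - z₀) ^ n • u (φ z) := hmap.eventually hFu
  have hne : ∀ᶠ z in 𝓝[≠] z₀, z ≠ z₀ := eventually_mem_nhdsWithin
  have hslope : ∀ z, φ z - z₀ = (z - z₀) * dslope φ z₀ z := by
    intro z
    have := sub_smul_dslope φ z₀ z
    rw [hφ0] at this
    rw [← this, smul_eq_mul]
  have hev : ∀ᶠ z in 𝓝[≠] z₀, (dslope φ z₀ z) ^ n * u (φ z) = c * u z := by
    filter_upwards [hFφ, hFu, hinv, hne] with z h1 h2 h3 h4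
    rw [h1, h2, hslope z, mul_zpow, smul_eq_mul, smul_eq_mul, mul_assoc, mul_left_comm c] at h3
    have hz : (z - z₀) ^ n ≠ 0 := zpow_ne_zero _ (sub_ne_zero.mpr h4)
    exact mul_left_cancel₀ hz h3
  have hds : ContinuousAt (dslope φ z₀) z₀ := continuousAt_dslope_same.mpr hφ.differentiableAt
  have hds0 : dslope φ z₀ z₀ ≠ 0 := by rw [dslope_same]; exact hφ'
  have hc1 : ContinuousAt (fun z => (dslope φ z₀ z) ^ n * u (φ z)) z₀ := by
    refine ContinuousAt.mul (hds.zpow₀ n (Or.inl hds0)) ?_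
    have : ContinuousAt u (φ z₀) := by rw [hφ0]; exact hu.continuousAt
    exact ContinuousAt.comp (f := φ) (g := u) this hφ.continuousAt
  have hc2 : ContinuousAt (fun z => c * u z) z₀ := continuousAt_const.mul hu.continuousAt
  have hlim := tendsto_nhds_unique_of_eventuallyEq
    (hc1.tendsto.mono_left nhdsWithin_le_nhds) (hc2.tendsto.mono_left nhdsWithin_le_nhds) hev
  simp only [dslope_same, hφ0] at hlim
  exact mul_right_cancel₀ hu0 hlim

/-- Multiplier lemma with character on the upper half plane: if `G (γ z) = c G z`, `γ z₀ = z₀`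
and `G` has order `n` at `z₀`, then `c * (denom γ z₀ ^ 2) ^ n = 1`. -/
theorem mul_denom_sq_pow_eq_one {G : ℍ → ℂ} (hG : MDiff G) (γ : SL(2, ℤ)) (z₀ : ℍ)
    (hγ : γ • z₀ = z₀) (c : ℂ) (hinv : ∀ z, G (γ • z) = c * G z) (n : ℕ)
    (hn : meromorphicOrderAt (G ∘ ofComplex) (z₀ : ℂ) = ((n : ℤ) : WithTop ℤ)) :
    c * (denom γ z₀ ^ 2) ^ n = 1 := by
  have hdet : 0 < ((γ : GL (Fin 2) ℝ)).det.val := by
    simp
  set φ : ℂ → ℂ := fun z => ((γ : GL (Fin 2) ℝ) • ofComplex z : ℍ) with hφdef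
  have hφ : AnalyticAt ℂ φ z₀ := z₀.analyticAt_smul hdet
  have hφ0 : φ z₀ = z₀ := by
    simp only [hφdef, ofComplex_apply]
    exact congrArg _ hγ
  have hdet1 : ((γ : GL (Fin 2) ℝ)).val.det = 1 :=
    (Matrix.SpecialLinearGroup.map (Int.castRingHom ℝ) γ).det_coe
  have hderiv : deriv φ z₀ = 1 / denom γ z₀ ^ 2 := by
    rw [hφdef, z₀.deriv_smul hdet, hdet1]
    simp
  have hd : denom γ z₀ ≠ 0 := denom_ne_zero _ z₀
  have hφ' : deriv φ z₀ ≠ 0 := by
    rw [hderiv]; exact one_div_ne_zero (pow_ne_zero _ hd)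
  have hFφ : ∀ᶠ z in 𝓝[≠] (z₀ : ℂ), (G ∘ ofComplex) (φ z) = c * (G ∘ ofComplex) z := by
    refine Eventually.of_forall fun z => ?_
    simp only [hφdef, Function.comp_apply, ofComplex_apply]
    exact hinv _
  have key := deriv_zpow_eq_of_comp_eq_mul (n := (n : ℤ))
    (Fermat.Agent.H61.analyticAt_comp_ofComplex hG z₀).meromorphicAt hn hφ hφ0 hφ' hFφ
  rw [hderiv, zpow_natCast, one_div, inv_pow] at key
  rw [← key]
  exact inv_mul_cancel₀ (pow_ne_zero _ (pow_ne_zero _ hd))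

/-- A nonzero holomorphic function on `ℍ` has finite order at every point. -/
theorem analyticOrderAt_ne_top_of_ne_zero {G : ℍ → ℂ} (hG : MDiff G) (hG0 : G ≠ 0) (z₀ : ℍ) :
    analyticOrderAt (G ∘ ofComplex) (z₀ : ℂ) ≠ ⊤ := by
  intro htop
  apply hG0
  have h0 : MDiff (0 : ℍ → ℂ) := by
    rw [UpperHalfPlane.mdifferentiable_iff]
    exact differentiableOn_const (c := (0 : ℂ))
  apply Fermat.Agent.H61.eq_of_eventuallyEq_nhdsNE hG h0 z₀
  have := (analyticOrderAt_eq_top.mp htop).filter_mono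
    (nhdsWithin_le_nhds (s := ({(z₀ : ℂ)}ᶜ : Set ℂ)))
  filter_upwards [this] with z hz
  simp only [Function.comp_apply, Pi.zero_apply] at hz ⊢
  exact hz

/-- Order of a power at a point of `ℍ`. -/
theorem exists_order_pow (m : ℕ) {G : ℍ → ℂ} (hG : MDiff G) (hG0 : G ≠ 0) (z₀ : ℍ) :
    ∃ n : ℕ, meromorphicOrderAt (G ∘ ofComplex) (z₀ : ℂ) = ((n : ℤ) : WithTop ℤ) ∧
      meromorphicOrderAt ((G ^ m) ∘ ofComplex) (z₀ : ℂ) = (((m * n : ℕ) : ℤ) : WithTop ℤ) := by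
  have han := Fermat.Agent.H61.analyticAt_comp_ofComplex hG z₀
  have hne := analyticOrderAt_ne_top_of_ne_zero hG hG0 z₀
  obtain ⟨n, hn⟩ := ENat.ne_top_iff_exists.mp hne
  have h1 : meromorphicOrderAt (G ∘ ofComplex) (z₀ : ℂ) = ((n : ℤ) : WithTop ℤ) := by
    rw [han.meromorphicOrderAt_eq, ← hn]
    rfl
  refine ⟨n, h1, ?_⟩
  have hpow : (G ^ m) ∘ ofComplex = (G ∘ ofComplex) ^ m := by
    funext z; simp
  rw [hpow, meromorphicOrderAt_pow han.meromorphicAt, h1]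
  push_cast
  rfl

/-- Two holomorphic functions on `ℍ` with the same `m`-th power differ by an `m`-th root of
unity. -/
theorem exists_root_of_unity_of_pow_eq {m : ℕ} (hm : 0 < m) {G₁ G₂ : ℍ → ℂ} (h₁ : MDiff G₁)
    (h₂ : MDiff G₂) (hpow : G₁ ^ m = G₂ ^ m) :
    ∃ ζ : ℂ, ζ ^ m = 1 ∧ ∀ z, G₁ z = ζ * G₂ z := by
  classical
  have hpt : ∀ z, G₁ z ^ m = G₂ z ^ m := fun z => congrFun hpow z
  by_cases hG2 : G₂ = 0
  · refine ⟨1, one_pow m, fun z => ?_⟩
    have := hpt z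
    rw [hG2, Pi.zero_apply, zero_pow hm.ne'] at this
    rw [hG2, Pi.zero_apply, mul_zero]
    exact pow_eq_zero_iff hm.ne' |>.mp this
  · obtain ⟨z₁, hz₁⟩ : ∃ z₁, G₂ z₁ ≠ 0 := by
      by_contra hcon
      simp only [not_exists, not_not] at hcon
      exact hG2 (funext hcon)
    set ζ : ℂ := G₁ z₁ / G₂ z₁ with hζ
    have hζm : ζ ^ m = 1 := by
      rw [hζ, div_pow, hpt z₁]
      exact div_self (pow_ne_zero _ hz₁)
    refine ⟨ζ, hζm, ?_⟩
    have hprim : IsPrimitiveRoot (Complex.exp (2 * Real.pi * Complex.I / m)) m :=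
      Complex.isPrimitiveRoot_exp m hm.ne'
    -- the functions on `ℂ`
    set F₁ : ℂ → ℂ := G₁ ∘ ofComplex with hF₁
    set F₂ : ℂ → ℂ := G₂ ∘ ofComplex with hF₂
    have hc₁ : ContinuousAt F₁ (z₁ : ℂ) :=
      (Fermat.Agent.H61.analyticAt_comp_ofComplex h₁ z₁).continuousAt
    have hc₂ : ContinuousAt F₂ (z₁ : ℂ) :=
      (Fermat.Agent.H61.analyticAt_comp_ofComplex h₂ z₁).continuousAt
    have hF₁z : F₁ (z₁ : ℂ) = G₁ z₁ := by simp [hF₁]
    have hF₂z : F₂ (z₁ : ℂ) = G₂ z₁ := by simp [hF₂]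
    have hprod : ∀ z : ℂ, ∏ ξ ∈ Polynomial.nthRootsFinset m (1 : ℂ), (F₁ z - ξ * F₂ z) = 0 := by
      intro z
      rw [← hprim.pow_sub_pow_eq_prod_sub_mul (F₁ z) (F₂ z) hm]
      simp only [hF₁, hF₂, Function.comp_apply]
      rw [hpt, sub_self]
    have hev : ∀ᶠ z in 𝓝 (z₁ : ℂ), ∀ ξ ∈ Polynomial.nthRootsFinset m (1 : ℂ), ξ ≠ ζ →
        F₁ z - ξ * F₂ z ≠ 0 := by
      rw [Filter.eventually_all_finset]
      intro ξ _
      by_cases hξ : ξ = ζ
      · exact Eventually.of_forall fun z h => absurd hξ h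
      · have hcont : ContinuousAt (fun z => F₁ z - ξ * F₂ z) (z₁ : ℂ) :=
          hc₁.sub (continuousAt_const.mul hc₂)
        have hne : F₁ (z₁ : ℂ) - ξ * F₂ (z₁ : ℂ) ≠ 0 := by
          rw [hF₁z, hF₂z]
          intro h0
          apply hξ
          rw [hζ, eq_div_iff hz₁]
          exact (sub_eq_zero.mp h0).symm
        filter_upwards [hcont.eventually_ne hne] with z hz _ using hz
    have hloc : ∀ᶠ z in 𝓝 (z₁ : ℂ), F₁ z = ζ * F₂ z := by
      filter_upwards [hev] with z hz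
      obtain ⟨ξ, hξmem, hξ0⟩ := Finset.prod_eq_zero_iff.mp (hprod z)
      by_cases hξ : ξ = ζ
      · rw [hξ] at hξ0
        exact sub_eq_zero.mp hξ0
      · exact absurd hξ0 (hz ξ hξmem hξ)
    have hmd : MDiff (fun z => ζ * G₂ z) := by
      rw [UpperHalfPlane.mdifferentiable_iff] at h₂ ⊢
      exact (h₂.const_smul ζ).congr (fun z _ => by simp [Function.comp_apply, smul_eq_mul])
    have := Fermat.Agent.H61.eq_of_eventuallyEq_nhdsNE h₁ hmd z₁
      (by
        have := hloc.filter_mono (nhdsWithin_le_nhds (s := ({(z₁ : ℂ)}ᶜ : Set ℂ)))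
        filter_upwards [this] with z hz
        simpa [hF₁, hF₂, Function.comp_apply] using hz)
    intro z
    exact congrFun this z

end Fermat.Agent.H50

end
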