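import Fermat.Agent.H23.EsA.Lemmas
import Fermat.Agent.H94.EsA.Interfaces2
import Fermat.Agent.H50.EsALocCore

/-!
# P-ES / ES-A/LOC (helper50): MULT-CHAR, POW-ORD, POW-EQ in the interface shapes
-/

set_option autoImplicit false

open UpperHalfPlane
open scoped MatrixGroups Manifold

namespace Fermat.Agent.H50

/-- **[MULT-CHAR]** (helper23's shape). -/
theorem multiplierChar : Fermat.Agent.H23.EsA.MultiplierCharStatement := by
  intro G hG γ z₀ hγ c hinv n hn
  exact mul_denom_sq_pow_eq_one hG γ z₀ hγ c hinv n hn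

/-- **[A-LOC-ELL]** (helper94's shape). -/
theorem localEll : Fermat.Agent.H94.EsA.LocalEllStatement := by
  intro G hG γ z₀ c hγ hinv n hn
  exact mul_denom_sq_pow_eq_one hG γ z₀ hγ c hinv n hn

/-- **[POW-ORD]**. -/
theorem powOrder : Fermat.Agent.H23.EsA.PowOrderStatement := by
  intro m G hG hG0 z₀
  exact exists_order_pow m hG hG0 z₀

/-- **[POW-EQ]**. -/
theorem powEq : Fermat.Agent.H23.EsA.PowEqStatement := by
  intro m hm G₁ G₂ h₁ h₂ hpow
  exact exists_root_of_unity_of_pow_eq hm h₁ h₂ hpow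

end Fermat.Agent.H50
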