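import Mathlib

set_option autoImplicit false

namespace Fermat.Agent.H50

/-- Finite sieve: for coprime `u > 9 e`, `0 < e < 8`, `u < 73`, the integer
`(u² - e²)(u² - 81 e²)` is a non-residue modulo one of a few small moduli. -/
theorem sieve_small :
    ∀ e < 8, ∀ u < 73, (0 < e ∧ 9 * e < u ∧ Nat.Coprime u e) →
      ∃ q ∈ [9, 7, 17, 13, 11, 19, 23, 29, 31],
        ∀ j < q, (j * j) % q ≠ ((u * u - e * e) * (u * u - 81 * (e * e))) % q := by
  decide +kernel

theorem not_isSquare_small (e u : ℕ) (he : 0 < e) (he8 : e < 8) (hu : u < 73) (h9 : 9 * e < u)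
    (hc : Nat.Coprime u e) : ¬ IsSquare ((u * u - e * e) * (u * u - 81 * (e * e))) := by
  rintro ⟨k, hk⟩
  obtain ⟨q, hq, hj⟩ := sieve_small e he8 u hu ⟨he, h9, hc⟩
  have hq0 : 0 < q := by
    simp only [List.mem_cons, List.not_mem_nil, or_false] at hq
    omega
  apply hj (k % q) (Nat.mod_lt _ hq0)
  rw [hk, ← Nat.mul_mod]

/-- No rational point of small height on `y² = x(x-1)(x-81)` with `x > 81`, assuming
`x` is a square. -/
theorem C4_small_of_isSquare (x y : ℚ) (hx : 81 < x) (hsq : IsSquare x)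
    (h : y ^ 2 = x * (x - 1) * (x - 81)) : 5248 < x.num := by
  obtain ⟨r, hr⟩ := hsq
  by_contra hle
  rw [not_lt] at hle
  set u : ℕ := r.num.natAbs with hu
  set e : ℕ := r.den with he
  have he0 : 0 < e := r.den_pos
  have hcop : Nat.Coprime u e := r.reduced
  have hxnum : x.num = (u : ℤ) * u := by
    rw [hr, Rat.mul_self_num, hu]
    rw [← Int.natAbs_mul_self' r.num]
  have hxden : x.den = e * e := by
    rw [hr, Rat.mul_self_den]
  -- x = u^2 / e^2
  have hxq : x = (u : ℚ) ^ 2 / (e : ℚ) ^ 2 := by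
    have h1 : x = (x.num : ℚ) / (x.den : ℚ) := (Rat.num_div_den x).symm
    rw [h1, hxnum, hxden]
    push_cast
    ring
  have heq : (e : ℚ) ≠ 0 := by exact_mod_cast he0.ne'
  have heq2 : (0 : ℚ) < (e : ℚ) ^ 2 := by positivity
  -- u > 9 e
  have h9 : 9 * e < u := by
    have h1 : (81 : ℚ) * (e : ℚ) ^ 2 < (u : ℚ) ^ 2 := by
      rw [hxq] at hx
      rwa [lt_div_iff₀ heq2] at hx
    have h2 : ((9 * e : ℕ) : ℚ) ^ 2 < (u : ℚ) ^ 2 := by
      push_cast
      nlinarith
    have h3 : ((9 * e : ℕ) : ℚ) < (u : ℚ) := by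
      apply lt_of_pow_lt_pow_left₀ 2 (by positivity) h2
    exact_mod_cast h3
  -- u ≤ 72
  have hu73 : u < 73 := by
    by_contra hcon
    rw [not_lt] at hcon
    have : (73 : ℤ) * 73 ≤ (u : ℤ) * u := by
      have : (73 : ℤ) ≤ u := by exact_mod_cast hcon
      nlinarith
    omega
  have he8 : e < 8 := by omega
  have hu0 : 0 < u := by omega
  have huq : (u : ℚ) ≠ 0 := by exact_mod_cast hu0.ne'
  -- the integer n
  have hsub1 : e * e ≤ u * u := by nlinarith
  have hsub2 : 81 * (e * e) ≤ u * u := by nlinarith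
  have hn : IsSquare (((u * u - e * e) * (u * u - 81 * (e * e)) : ℕ) : ℚ) := by
    refine ⟨y * (e : ℚ) ^ 3 / u, ?_⟩
    rw [Nat.cast_mul, Nat.cast_sub hsub1, Nat.cast_sub hsub2]
    push_cast
    have hy : y ^ 2 * (e : ℚ) ^ 6 = (u : ℚ) ^ 2 * ((u : ℚ) ^ 2 - (e : ℚ) ^ 2)
        * ((u : ℚ) ^ 2 - 81 * (e : ℚ) ^ 2) := by
      rw [h, hxq]
      field_simp
    field_simp
    linear_combination -hy
  rw [Rat.isSquare_natCast_iff] at hn
  exact not_isSquare_small e u he0 he8 hu73 h9 hcop hn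

end Fermat.Agent.H50
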