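import Mathlib
import Fermat.Agent.H50.SmallPoints

/-!
# Rational points of `V² = Z (Z - 9) (Z - 25)` (the curve 15a1 = X₀(15)), assembly

We reduce to the 2-isogenous curve `E' : y² = x (x - 1) (x - 81)` and run an infinite descent
on the branch `x > 81`.  The three local/algebraic inputs of the descent are taken as
hypotheses (`C1aProp`, `C1bProp`, `C3Prop`).
-/

set_option autoImplicit false

namespace Fermat.Agent.H50

/-- On `E'` with `x > 81`, `x` is a rational square. -/
def C1aProp : Prop :=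
  ∀ x y : ℚ, 81 < x → y ^ 2 = x * (x - 1) * (x - 81) → IsSquare x

/-- On `E'` with `x > 81`, `x - 1` is a square or five times a square. -/
def C1bProp : Prop :=
  ∀ x y : ℚ, 81 < x → y ^ 2 = x * (x - 1) * (x - 81) →
    IsSquare (x - 1) ∨ IsSquare (5 * (x - 1))

/-- Halving with height bound. -/
def C3Prop : Prop :=
  ∀ x : ℚ, 81 < x → IsSquare x → IsSquare (x - 1) → IsSquare (x - 81) →
    ∃ x₂ y₂ : ℚ, 81 < x₂ ∧ y₂ ^ 2 = x₂ * (x₂ - 1) * (x₂ - 81) ∧ x₂.num ^ 2 ≤ 324 * x.num

/-- The numerator of a positive quotient of integers is at most the numerator. -/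
theorem num_div_le_of_pos {a b : ℤ} (ha : 0 < a) (hb : 0 < b) : ((a : ℚ) / (b : ℚ)).num ≤ a := by
  have h1 : ((a : ℚ) / (b : ℚ)) = Rat.divInt a b := (Rat.divInt_eq_div a b).symm
  rw [h1]
  exact Int.le_of_dvd ha (Rat.num_dvd a hb.ne')

/-- If `5 * (n : ℚ)` is `(k / e)²`-shaped, i.e. `5 * n * e²` is a rational square with `n` an
integer, then `5 ∣ n`. -/
theorem five_dvd_of_isSquare {n : ℤ} (h : IsSquare (5 * (n : ℚ))) : (5 : ℤ) ∣ n := by
  have h' : IsSquare ((5 * n : ℤ) : ℚ) := by push_cast; exact h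
  rw [Rat.isSquare_intCast_iff] at h'
  obtain ⟨k, hk⟩ := h'
  have h5 : (5 : ℤ) ∣ k * k := ⟨n, hk.symm⟩
  have h5k : (5 : ℤ) ∣ k := by
    rcases (Int.prime_iff_natAbs_prime.mpr (by norm_num : Nat.Prime (5 : ℤ).natAbs)).dvd_or_dvd h5
      with h | h <;> exact h
  obtain ⟨m, rfl⟩ := h5k
  refine ⟨m * m, ?_⟩
  have : 5 * n = 5 * (5 * (m * m)) := by rw [hk]; ring
  linarith

/-- Class `5` to class `1` (translation by the 2-torsion point `(81, 0)`). -/
theorem C2_translate (x : ℚ) (hx : 81 < x) (h0 : IsSquare x) (h1 : IsSquare (5 * (x - 1)))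
    (h81 : IsSquare (5 * (x - 81))) :
    ∃ x₁ : ℚ, 81 < x₁ ∧ IsSquare x₁ ∧ IsSquare (x₁ - 1) ∧ IsSquare (x₁ - 81) ∧
      5 * x₁.num ≤ 81 * x.num := by
  have hx81 : 0 < x - 81 := by linarith
  have hx81' : x - 81 ≠ 0 := hx81.ne'
  obtain ⟨r, hr⟩ := h0
  obtain ⟨a, ha⟩ := h1
  obtain ⟨b, hb⟩ := h81
  have hb0 : b ≠ 0 := by
    rintro rfl
    simp only [mul_zero, mul_eq_zero, OfNat.ofNat_ne_zero, false_or] at hb
    exact hx81' hb
  refine ⟨81 * (x - 1) / (x - 81), ?_, ?_, ?_, ?_, ?_⟩
  · rw [lt_div_iff₀ hx81]; nlinarith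
  · refine ⟨9 * a / b, ?_⟩
    field_simp
    linear_combination (-81) * (x - 1) * hb + 81 * (x - 81) * ha
  · refine ⟨20 * r / b, ?_⟩
    field_simp
    linear_combination (-80) * x * hb + 400 * (x - 81) * hr
  · refine ⟨180 / b, ?_⟩
    field_simp
    linear_combination (-6480) * hb
  · -- height bound
    obtain ⟨N, hN⟩ : ∃ N : ℤ, N = x.num := ⟨_, rfl⟩
    obtain ⟨D, hD⟩ : ∃ D : ℤ, D = (x.den : ℤ) := ⟨_, rfl⟩
    have hDpos : (0 : ℤ) < D := by rw [hD]; exact_mod_cast x.den_pos
    have hDq : (D : ℚ) ≠ 0 := by exact_mod_cast hDpos.ne'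
    have hxND : x = (N : ℚ) / (D : ℚ) := by
      rw [hN, hD]; exact_mod_cast (Rat.num_div_den x).symm
    -- the denominator is a square
    have hDsq : ∃ e : ℤ, D = e * e ∧ 0 < e := by
      refine ⟨(r.den : ℤ), ?_, by exact_mod_cast r.den_pos⟩
      rw [hD, hr, Rat.mul_self_den]; push_cast; ring
    obtain ⟨e, hDe, he⟩ := hDsq
    have heq : (e : ℚ) ≠ 0 := by exact_mod_cast he.ne'
    have hND1 : (5 : ℤ) ∣ N - D := by
      apply five_dvd_of_isSquare
      refine ⟨a * e, ?_⟩
      have : (5 : ℚ) * ((N - D : ℤ) : ℚ) = 5 * (x - 1) * (e * e) := by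
        rw [hxND]; push_cast; rw [hDe]; push_cast; field_simp
      rw [this, ha]; ring
    have hND81 : (5 : ℤ) ∣ N - 81 * D := by
      apply five_dvd_of_isSquare
      refine ⟨b * e, ?_⟩
      have : (5 : ℚ) * ((N - 81 * D : ℤ) : ℚ) = 5 * (x - 81) * (e * e) := by
        rw [hxND]; push_cast; rw [hDe]; push_cast; field_simp
      rw [this, hb]; ring
    obtain ⟨A, hA⟩ := hND1
    obtain ⟨B, hB⟩ := hND81
    have hNpos : 0 < N := by rw [hN]; exact Rat.num_pos.mpr (by linarith)
    have hxgt : (81 : ℚ) * D < N := by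
      have := hx
      rw [hxND, lt_div_iff₀ (by exact_mod_cast hDpos)] at this
      exact this
    have hxgt' : 81 * D < N := by exact_mod_cast hxgt
    have hBpos : 0 < B := by
      by_contra hcon
      rw [not_lt] at hcon
      nlinarith
    have hApos : 0 < A := by
      by_contra hcon
      rw [not_lt] at hcon
      nlinarith
    have hx1 : 81 * (x - 1) / (x - 81) = ((81 * A : ℤ) : ℚ) / ((B : ℤ) : ℚ) := by
      have hBq : (B : ℚ) ≠ 0 := by exact_mod_cast hBpos.ne'
      have hAq : ((N : ℚ) - D) = 5 * A := by exact_mod_cast hA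
      have hBq' : ((N : ℚ) - 81 * D) = 5 * B := by exact_mod_cast hB
      have e1 : x - 1 = 5 * (A : ℚ) / D := by
        rw [hxND]; field_simp; linear_combination hAq
      have e2 : x - 81 = 5 * (B : ℚ) / D := by
        rw [hxND]; field_simp; linear_combination hBq'
      rw [e1, e2]
      push_cast
      field_simp
    rw [hx1, ← hN]
    have hle := num_div_le_of_pos (a := 81 * A) (b := B) (by positivity) hBpos
    have : 5 * (81 * A) ≤ 81 * N := by nlinarith
    linarith

/-- Main descent: no rational point on `E'` with `x > 81`. -/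
theorem Cplus_no_point (h1a : C1aProp) (h1b : C1bProp) (h3 : C3Prop) :
    ∀ (n : ℕ) (x y : ℚ), 81 < x → y ^ 2 = x * (x - 1) * (x - 81) → x.num.toNat = n → False := by
  intro n
  induction n using Nat.strong_induction_on with
  | _ n ih =>
    intro x y hx h hn
    have hsq := h1a x y hx h
    have hnum := C4_small_of_isSquare x y hx hsq h
    have hx0 : x ≠ 0 := by intro h0; rw [h0] at hx; norm_num at hx
    have hx1 : x - 1 ≠ 0 := by
      intro h0
      linarith
    have hy0 : y ≠ 0 := by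
      rintro rfl
      have h81 : x - 81 ≠ 0 := by intro h0; linarith
      have : x * (x - 1) * (x - 81) ≠ 0 := mul_ne_zero (mul_ne_zero hx0 hx1) h81
      exact this (by rw [← h]; ring)
    -- descend to a point of class 1 with controlled height
    obtain ⟨x₁, hx₁, hs0, hs1, hs81, hht⟩ : ∃ x₁ : ℚ, 81 < x₁ ∧ IsSquare x₁ ∧ IsSquare (x₁ - 1) ∧
        IsSquare (x₁ - 81) ∧ 5 * x₁.num ≤ 81 * x.num := by
      obtain ⟨r, hr⟩ := hsq
      have hr0 : r ≠ 0 := by rintro rfl; exact hx0 (by rw [hr]; ring)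
      rcases h1b x y hx h with ⟨a, ha⟩ | ⟨a, ha⟩
      · have ha0 : a ≠ 0 := by rintro rfl; exact hx1 (by rw [ha]; ring)
        refine ⟨x, hx, ⟨r, hr⟩, ⟨a, ha⟩, ⟨y / (r * a), ?_⟩, ?_⟩
        · field_simp
          have e1 : y ^ 2 = (r * r) * (a * a) * (x - 81) := by rw [← hr, ← ha]; exact h
          linear_combination -e1
        · have : 0 < x.num := Rat.num_pos.mpr (by linarith)
          linarith
      · have ha0 : a ≠ 0 := by
          rintro rfl
          simp only [mul_zero, mul_eq_zero, OfNat.ofNat_ne_zero, false_or] at ha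
          exact hx1 ha
        refine C2_translate x hx ⟨r, hr⟩ ⟨a, ha⟩ ⟨5 * y / (r * a), ?_⟩
        field_simp
        have e1 : 5 * y ^ 2 = (r * r) * (a * a) * (x - 81) := by
          rw [← hr, ← ha, h]; ring
        linear_combination (-1) * e1
    obtain ⟨x₂, y₂, hx₂, h₂, hht₂⟩ := h3 x₁ hx₁ hs0 hs1 hs81
    have hpos : 0 < x.num := Rat.num_pos.mpr (by linarith)
    have hpos₂ : 0 < x₂.num := Rat.num_pos.mpr (by linarith)
    have hlt : x₂.num < x.num := by
      by_contra hcon
      rw [not_lt] at hcon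
      nlinarith
    refine ih x₂.num.toNat ?_ x₂ y₂ hx₂ h₂ rfl
    rw [← hn]
    omega

theorem Cprime_points (h1a : C1aProp) (h1b : C1bProp) (h3 : C3Prop) (x y : ℚ)
    (h : y ^ 2 = x * (x - 1) * (x - 81)) : x = 0 ∨ x = 1 ∨ x = 81 := by
  by_cases hy : y = 0
  · rw [hy] at h
    have h' : x * (x - 1) * (x - 81) = 0 := by rw [← h]; ring
    rcases mul_eq_zero.mp h' with h1 | h1
    · rcases mul_eq_zero.mp h1 with h2 | h2
      · exact Or.inl h2
      · exact Or.inr (Or.inl (by linarith))
    · exact Or.inr (Or.inr (by linarith))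
  · exfalso
    have hpos : 0 < x * (x - 1) * (x - 81) := by rw [← h]; positivity
    by_cases hx : 81 < x
    · exact Cplus_no_point h1a h1b h3 _ x y hx h rfl
    · rw [not_lt] at hx
      -- then 0 < x < 1
      have hx0 : 0 < x := by
        by_contra hcon
        rw [not_lt] at hcon
        have : x * (x - 1) * (x - 81) ≤ 0 := by
          have h1 : 0 ≤ x * (x - 1) := by nlinarith
          nlinarith
        linarith
      have hx1 : x < 1 := by
        by_contra hcon
        rw [not_lt] at hcon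
        have : x * (x - 1) * (x - 81) ≤ 0 := by
          have h1 : 0 ≤ x * (x - 1) := by nlinarith
          nlinarith
        linarith
      have hx' : (81 : ℚ) < 81 / x := by
        rw [lt_div_iff₀ hx0]; nlinarith
      refine Cplus_no_point h1a h1b h3 _ (81 / x) (81 * y / x ^ 2) hx' ?_ rfl
      field_simp
      linear_combination h

/-- The rational points of `V² = Z (Z - 9) (Z - 25)`, assuming the three descent inputs. -/
theorem rational_points_15a1_of (h1a : C1aProp) (h1b : C1bProp) (h3 : C3Prop) (Z V : ℚ)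
    (h : V ^ 2 = Z * (Z - 9) * (Z - 25)) : Z = 0 ∨ Z = 9 ∨ Z = 25 ∨ Z = 5 ∨ Z = 45 := by
  by_cases h25 : Z = 25
  · exact Or.inr (Or.inr (Or.inl h25))
  · have h25' : Z - 25 ≠ 0 := sub_ne_zero.mpr h25
    have key := Cprime_points h1a h1b h3 (Z * (Z - 9) / (Z - 25))
      (V * (Z - 45) * (Z - 5) / (Z - 25) ^ 2) (by
        field_simp
        linear_combination (Z - 45) ^ 2 * (Z - 5) ^ 2 * h)
    rcases key with h0 | h1 | h81
    · rw [div_eq_zero_iff] at h0
      rcases h0 with h0 | h0
      · rcases mul_eq_zero.mp h0 with h2 | h2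
        · exact Or.inl h2
        · exact Or.inr (Or.inl (by linarith))
      · exact absurd h0 h25'
    · rw [div_eq_iff h25'] at h1
      have : (Z - 5) ^ 2 = 0 := by linear_combination h1
      have : Z - 5 = 0 := by simpa using this
      exact Or.inr (Or.inr (Or.inr (Or.inl (by linarith))))
    · rw [div_eq_iff h25'] at h81
      have : (Z - 45) ^ 2 = 0 := by linear_combination h81
      have : Z - 45 = 0 := by simpa using this
      exact Or.inr (Or.inr (Or.inr (Or.inr (by linarith))))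

end Fermat.Agent.H50
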