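import Mathlib
import Fermat.Agent.H50.DescentMain
import Fermat.Agent.H95.C1a
import Fermat.Agent.H40.X015C1b
import Fermat.Agent.H60.C3Halve
import Fermat.Agent.H89.X015Algebra

/-!
# Rational points of `V² = Z (Z - 9) (Z - 25)` (15a1 = X₀(15)): final statement
-/

set_option autoImplicit false

namespace Fermat.Agent.H50

theorem c1aProp : C1aProp := fun x y hx h => Fermat.Agent.H95.C1a_isSquare_x x y hx h

theorem c1bProp : C1bProp := fun x y hx h => Fermat.Agent.H40.C1b_isSquare_x_sub_one x y hx h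

theorem c3Prop : C3Prop := fun x hx h0 h1 h81 => Fermat.Agent.H60.C3_halve x hx h0 h1 h81

/-- The affine rational points of `V² = Z (Z - 9) (Z - 25)` have `Z ∈ {0, 9, 25, 5, 45}`. -/
theorem rational_points_15a1 (Z V : ℚ) (h : V ^ 2 = Z * (Z - 9) * (Z - 25)) :
    Z = 0 ∨ Z = 9 ∨ Z = 25 ∨ Z = 5 ∨ Z = 45 :=
  rational_points_15a1_of c1aProp c1bProp c3Prop Z V h

theorem descentX015 : Fermat.Agent.H89.DescentX015 := fun Z V h => rational_points_15a1 Z V h

end Fermat.Agent.H50
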