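import Mathlib
import Fermat.Agent.H61.GenAn1
import Fermat.Agent.H82.CuspMero
import Fermat.Agent.H50.EsALocCore

/-!
# P-ES / ES-A/LOC (helper50): local lemmas at the cusp (CUSP-POW, CUSP-ROOT), cores
-/

set_option autoImplicit false

noncomputable section

open Function Complex Filter UpperHalfPlane
open scoped Topology Real Manifold MatrixGroups

namespace Fermat.Agent.H50

/-- A holomorphic function on `ℍ` vanishing near a point vanishes identically. -/
theorem eq_zero_of_eventually_eq_zero {H : ℍ → ℂ} (hH : MDiff H) (z₀ : ℍ)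
    (h : ∀ᶠ z in 𝓝 (z₀ : ℂ), (H ∘ ofComplex) z = 0) : H = 0 := by
  by_contra hH0
  exact analyticOrderAt_ne_top_of_ne_zero hH hH0 z₀ (analyticOrderAt_eq_top.mpr h)

/-- A holomorphic function on `ℍ` vanishing for large imaginary part vanishes identically. -/
theorem eq_zero_of_eventually_atImInfty {H : ℍ → ℂ} (hH : MDiff H)
    (h : ∀ᶠ z in comap Complex.im atTop, (H ∘ ofComplex) z = 0) : H = 0 := by
  rw [Filter.eventually_comap] at h
  obtain ⟨Y, hY⟩ := Filter.eventually_atTop.mp h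
  have hpos : 0 < ((max Y 0 + 1 : ℝ) * Complex.I : ℂ).im := by
    simp only [Complex.mul_im, Complex.I_re, Complex.I_im, mul_zero, mul_one]
    have : (0 : ℝ) ≤ max Y 0 := le_max_right _ _
    have h1 : ((max Y 0 + 1 : ℝ) : ℂ).re = max Y 0 + 1 := Complex.ofReal_re _
    rw [h1]
    linarith
  set z₀ : ℍ := ⟨(max Y 0 + 1 : ℝ) * Complex.I, hpos⟩ with hz₀
  apply eq_zero_of_eventually_eq_zero hH z₀
  have hopen : IsOpen {z : ℂ | max Y 0 < z.im} := isOpen_lt continuous_const Complex.continuous_im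
  have hmem : (z₀ : ℂ) ∈ {z : ℂ | max Y 0 < z.im} := by
    show max Y 0 < ((max Y 0 + 1 : ℝ) * Complex.I : ℂ).im
    simp only [Complex.mul_im, Complex.I_re, Complex.I_im, mul_zero, mul_one]
    have h1 : ((max Y 0 + 1 : ℝ) : ℂ).re = max Y 0 + 1 := Complex.ofReal_re _
    rw [h1]
    linarith
  filter_upwards [hopen.mem_nhds hmem] with z hz
  exact hY z.im (le_trans (le_max_left _ _) (le_of_lt hz)) z rfl

/-- The cusp function of a nonzero holomorphic periodic function has finite order at `0`. -/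
theorem cuspFunction_order_ne_top (w : ℕ) (hw : 0 < w) {H : ℍ → ℂ} (hH : MDiff H) (hH0 : H ≠ 0)
    (hper : ∀ z : ℍ, H (ModularGroup.T ^ w • z) = H z) :
    meromorphicOrderAt (Periodic.cuspFunction (w : ℝ) (H ∘ ofComplex)) 0 ≠ ⊤ := by
  intro htop
  rw [meromorphicOrderAt_eq_top_iff] at htop
  have hwR : (0 : ℝ) < w := by exact_mod_cast hw
  have h1 := (Periodic.qParam_tendsto hwR).eventually htop
  apply hH0
  apply eq_zero_of_eventually_atImInfty hH
  filter_upwards [h1] with z hz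
  rwa [Periodic.eq_cuspFunction hwR.ne' (Fermat.Agent.H82.cm_periodic_comp_ofComplex w H hper)]
    at hz

/-- **CUSP-POW, core.** -/
theorem cuspOrd_pow_core (m w : ℕ) (hw : 0 < w) {H : ℍ → ℂ} (hH : MDiff H) (hH0 : H ≠ 0)
    (hper : ∀ z : ℍ, H (ModularGroup.T ^ w • z) = H z)
    (M : ℕ) (C Y : ℝ) (hgrow : ∀ z : ℍ, Y ≤ z.im → ‖H z‖ ≤ C * Real.exp (2 * π * M * z.im)) :
    ∃ n : ℤ,
      meromorphicOrderAt (Periodic.cuspFunction (w : ℝ) (H ∘ ofComplex)) 0 = (n : WithTop ℤ) ∧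
      meromorphicOrderAt (Periodic.cuspFunction (w : ℝ) ((H ^ m) ∘ ofComplex)) 0 =
        (((m : ℤ) * n : ℤ) : WithTop ℤ) := by
  have : NeZero w := ⟨hw.ne'⟩
  have hmero := Fermat.Agent.H82.cm_meromorphicAt_cuspFunction_of_growth w H hH hper M C Y hgrow
  have hne := cuspFunction_order_ne_top w hw hH hH0 hper
  obtain ⟨n, hn⟩ := WithTop.ne_top_iff_exists.mp hne
  refine ⟨n, hn.symm, ?_⟩
  have hcongr : Periodic.cuspFunction (w : ℝ) ((H ^ m) ∘ ofComplex) =ᶠ[𝓝[≠] 0]
      (Periodic.cuspFunction (w : ℝ) (H ∘ ofComplex)) ^ m := by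
    filter_upwards [self_mem_nhdsWithin] with q hq
    have hq0 : q ≠ 0 := hq
    rw [Pi.pow_apply, Periodic.cuspFunction_eq_of_nonzero _ _ hq0,
      Periodic.cuspFunction_eq_of_nonzero _ _ hq0]
    simp
  rw [meromorphicOrderAt_congr hcongr, meromorphicOrderAt_pow hmero, ← hn]
  push_cast
  rfl

end Fermat.Agent.H50

end
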