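import Mathlib
import Fermat.Agent.H50.EsACusp

/-!
# P-ES / ES-A/LOC (helper50): CUSP-ROOT, core

If `H (z + w) = ζ H z` with `ζ ^ m = 1` and the `w`-periodic function `H ^ m` has cusp order
divisible by `m`, then `ζ = 1`.
-/

set_option autoImplicit false

noncomputable section

open Function Complex Filter UpperHalfPlane
open scoped Topology Real Manifold MatrixGroups

namespace Fermat.Agent.H50

/-- Iterating the multiplier relation. -/
theorem mult_iterate {H : ℍ → ℂ} (w : ℕ) (ζ : ℂ)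
    (hmul : ∀ z : ℍ, H (ModularGroup.T ^ w • z) = ζ * H z) (k : ℕ) (z : ℍ) :
    H (ModularGroup.T ^ (k * w) • z) = ζ ^ k * H z := by
  induction k generalizing z with
  | zero => simp
  | succ k ih =>
    have : ModularGroup.T ^ ((k + 1) * w) = ModularGroup.T ^ (k * w) * ModularGroup.T ^ w := by
      rw [← pow_add]
      congr 1
      ring
    rw [this, mul_smul, ih, hmul, pow_succ]
    ring

/-- `ofComplex (z + w) = T ^ w • z` for `z` in the upper half plane. -/
theorem ofComplex_add_nat (w : ℕ) (z : ℍ) :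
    ofComplex ((z : ℂ) + (w : ℂ)) = ModularGroup.T ^ w • z := by
  have h := ModularGroup.coe_T_zpow_smul_eq (z := z) (n := (w : ℤ))
  rw [zpow_natCast] at h
  have h2 : ((ModularGroup.T ^ w • z : ℍ) : ℂ) = (z : ℂ) + (w : ℂ) := by
    rw [h]; simp
  rw [← h2]
  exact ofComplex_apply _

/-- `𝕢_w z = (𝕢_{m w} z) ^ m`. -/
theorem qParam_eq_pow (m w : ℕ) (hm : 0 < m) (hw : 0 < w) (z : ℂ) :
    Periodic.qParam (w : ℝ) z = Periodic.qParam ((m * w : ℕ) : ℝ) z ^ m := by
  simp only [Periodic.qParam]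
  rw [← Complex.exp_nat_mul]
  congr 1
  have hm' : (m : ℂ) ≠ 0 := by exact_mod_cast hm.ne'
  have hw' : (w : ℂ) ≠ 0 := by exact_mod_cast hw.ne'
  push_cast
  field_simp

/-- `𝕢_{m w} (z + w) = exp (2πi / m) * 𝕢_{m w} z`. -/
theorem qParam_add_width (m w : ℕ) (hm : 0 < m) (hw : 0 < w) (z : ℂ) :
    Periodic.qParam ((m * w : ℕ) : ℝ) (z + w) =
      Complex.exp (2 * π * Complex.I / m) * Periodic.qParam ((m * w : ℕ) : ℝ) z := by
  simp only [Periodic.qParam]
  rw [← Complex.exp_add]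
  congr 1
  have hm' : (m : ℂ) ≠ 0 := by exact_mod_cast hm.ne'
  have hw' : (w : ℂ) ≠ 0 := by exact_mod_cast hw.ne'
  push_cast
  field_simp
  ring

/-- **CUSP-ROOT, core.** -/
theorem cusp_root_core (m w : ℕ) (hm : 0 < m) (hw : 0 < w) {H : ℍ → ℂ} (hH : MDiff H)
    (hH0 : H ≠ 0) (M : ℕ) (C Y : ℝ)
    (hgrow : ∀ z : ℍ, Y ≤ z.im → ‖H z‖ ≤ C * Real.exp (2 * π * M * z.im))
    (ζ : ℂ) (hζ : ζ ^ m = 1) (hmul : ∀ z : ℍ, H (ModularGroup.T ^ w • z) = ζ * H z)
    (d : ℤ)
    (hd : meromorphicOrderAt (Periodic.cuspFunction (w : ℝ) ((H ^ m) ∘ ofComplex)) 0 =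
      (((m : ℤ) * d : ℤ) : WithTop ℤ)) :
    ζ = 1 := by
  have hW : 0 < m * w := Nat.mul_pos hm hw
  have hWR : (0 : ℝ) < ((m * w : ℕ) : ℝ) := by exact_mod_cast hW
  have hwR : (0 : ℝ) < (w : ℝ) := by exact_mod_cast hw
  have : NeZero (m * w) := ⟨hW.ne'⟩
  have : NeZero w := ⟨hw.ne'⟩
  -- periodicity statements
  have hperW : ∀ z : ℍ, H (ModularGroup.T ^ (m * w) • z) = H z := by
    intro z
    rw [mult_iterate w ζ hmul m z, hζ, one_mul]
  have hperPow : ∀ z : ℍ, (H ^ m) (ModularGroup.T ^ w • z) = (H ^ m) z := by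
    intro z
    simp only [Pi.pow_apply]
    rw [hmul, mul_pow, hζ, one_mul]
  have hPW : Periodic (H ∘ ofComplex) ((m * w : ℕ) : ℝ) :=
    Fermat.Agent.H82.cm_periodic_comp_ofComplex (m * w) H hperW
  have hPw : Periodic ((H ^ m) ∘ ofComplex) (w : ℝ) :=
    Fermat.Agent.H82.cm_periodic_comp_ofComplex w (H ^ m) hperPow
  -- the two cusp functions
  set F : ℂ → ℂ := Periodic.cuspFunction ((m * w : ℕ) : ℝ) (H ∘ ofComplex) with hF
  set G : ℂ → ℂ := Periodic.cuspFunction (w : ℝ) ((H ^ m) ∘ ofComplex) with hG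
  have hmeroF : MeromorphicAt F 0 :=
    Fermat.Agent.H82.cm_meromorphicAt_cuspFunction_of_growth (m * w) H hH hperW M C Y hgrow
  obtain ⟨k, hk, -⟩ := cuspOrd_pow_core 1 (m * w) hW hH hH0 hperW M C Y hgrow
  -- relation A : F t ^ m = G (t ^ m)
  have hA : ∀ t : ℂ, t ≠ 0 → F t ^ m = G (t ^ m) := by
    intro t ht
    have h1 : F t = (H ∘ ofComplex) (Periodic.invQParam ((m * w : ℕ) : ℝ) t) :=
      Periodic.cuspFunction_eq_of_nonzero _ _ ht
    have h2 : Periodic.qParam (w : ℝ) (Periodic.invQParam ((m * w : ℕ) : ℝ) t) = t ^ m := by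
      rw [qParam_eq_pow m w hm hw, Periodic.qParam_right_inv hWR.ne' ht]
    rw [← h2, hG, Periodic.eq_cuspFunction hwR.ne' hPw, h1]
    simp
  -- `G` is meromorphic at `0`
  have hmeroG' : MeromorphicAt (fun t : ℂ => G (t ^ m)) 0 := by
    refine (hmeroF.pow m).congr ?_
    filter_upwards [self_mem_nhdsWithin] with t ht
    exact hA t ht
  -- order of `F ^ m`
  have hordFm : meromorphicOrderAt (F ^ m) 0 = (((m : ℤ) * k : ℤ) : WithTop ℤ) := by
    rw [meromorphicOrderAt_pow hmeroF, hk]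
    push_cast
    rfl
  have hcongr : (F ^ m) =ᶠ[𝓝[≠] 0] (fun t : ℂ => G (t ^ m)) := by
    filter_upwards [self_mem_nhdsWithin] with t ht
    exact hA t ht
  -- the pow map preserves punctured neighbourhoods
  have hpowT : Tendsto (fun t : ℂ => t ^ m) (𝓝[≠] 0) (𝓝[≠] 0) := by
    apply tendsto_nhdsWithin_of_tendsto_nhds_of_eventually_within
    · have : Tendsto (fun t : ℂ => t ^ m) (𝓝 0) (𝓝 (0 ^ m)) :=
        (continuous_pow m).continuousAt.tendsto
      rw [zero_pow hm.ne'] at this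
      exact this.mono_left nhdsWithin_le_nhds
    · filter_upwards [self_mem_nhdsWithin] with t ht
      exact pow_ne_zero m ht
  -- meromorphy of `G` itself (needed to unfold `hd`)
  have hmeroG : MeromorphicAt G 0 := by
    have hC : ∀ z : ℍ, Y ≤ z.im → ‖(H ^ m) z‖ ≤ C ^ m * Real.exp (2 * π * (m * M : ℕ) * z.im) := by
      intro z hz
      have h1 := hgrow z hz
      have h2 : ‖(H ^ m) z‖ = ‖H z‖ ^ m := by simp
      rw [h2]
      have h3 : ‖H z‖ ^ m ≤ (C * Real.exp (2 * π * M * z.im)) ^ m :=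
        pow_le_pow_left₀ (norm_nonneg _) h1 m
      refine h3.trans (le_of_eq ?_)
      rw [mul_pow, ← Real.exp_nat_mul]
      congr 2
      push_cast
      ring
    exact Fermat.Agent.H82.cm_meromorphicAt_cuspFunction_of_growth w (H ^ m) (hH.pow m) hperPow
      (m * M) (C ^ m) Y hC
  obtain ⟨v, hv, hv0, hGv⟩ := (meromorphicOrderAt_eq_int_iff hmeroG).mp hd
  -- order of `t ↦ G (t ^ m)`
  have hordG : meromorphicOrderAt (fun t : ℂ => G (t ^ m)) 0 =
      (((m : ℤ) * ((m : ℤ) * d) : ℤ) : WithTop ℤ) := by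
    rw [meromorphicOrderAt_eq_int_iff hmeroG']
    refine ⟨fun t => v (t ^ m), ?_, ?_, ?_⟩
    · have h0 : AnalyticAt ℂ v ((0 : ℂ) ^ m) := by rw [zero_pow hm.ne']; exact hv
      exact AnalyticAt.comp (g := v) (f := fun t : ℂ => t ^ m) h0 ((analyticAt_id).pow m)
    · simp only [zero_pow hm.ne']
      exact hv0
    · filter_upwards [hpowT.eventually hGv] with t ht
      rw [ht, sub_zero, sub_zero, ← zpow_natCast t m, ← zpow_mul]
  have hkd : k = (m : ℤ) * d := by
    have h1 : (((m : ℤ) * k : ℤ) : WithTop ℤ) = (((m : ℤ) * ((m : ℤ) * d) : ℤ) : WithTop ℤ) := by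
      rw [← hordFm, ← hordG]
      exact meromorphicOrderAt_congr hcongr
    have h2 : (m : ℤ) * k = (m : ℤ) * ((m : ℤ) * d) := by exact_mod_cast h1
    have hm0 : (m : ℤ) ≠ 0 := by exact_mod_cast hm.ne'
    exact mul_left_cancel₀ hm0 h2
  -- relation B : F (ω t) = ζ F t for 0 < ‖t‖ < 1
  set ω : ℂ := Complex.exp (2 * π * Complex.I / m) with hω
  have hω0 : ω ≠ 0 := Complex.exp_ne_zero _
  have hωm : ω ^ m = 1 := by
    rw [hω, ← Complex.exp_nat_mul]
    have hm' : (m : ℂ) ≠ 0 := by exact_mod_cast hm.ne'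
    have : (m : ℂ) * (2 * π * Complex.I / m) = 2 * π * Complex.I := by
      field_simp
    rw [this, Complex.exp_two_pi_mul_I]
  have hB : ∀ t : ℂ, t ≠ 0 → ‖t‖ < 1 → F (ω * t) = ζ * F t := by
    intro t ht ht1
    set z : ℂ := Periodic.invQParam ((m * w : ℕ) : ℝ) t with hz
    have hzim : 0 < z.im := by
      rw [hz, Periodic.im_invQParam]
      have hlog : Real.log ‖t‖ < 0 := Real.log_neg (norm_pos_iff.mpr ht) ht1
      have hneg : -((m * w : ℕ) : ℝ) / (2 * π) < 0 := by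
        apply div_neg_of_neg_of_pos
        · linarith
        · positivity
      exact mul_pos_of_neg_of_neg hneg hlog
    have hqz : Periodic.qParam ((m * w : ℕ) : ℝ) z = t := Periodic.qParam_right_inv hWR.ne' ht
    have h1 : F t = (H ∘ ofComplex) z := Periodic.cuspFunction_eq_of_nonzero _ _ ht
    have h2 : ω * t = Periodic.qParam ((m * w : ℕ) : ℝ) (z + w) := by
      rw [qParam_add_width m w hm hw, hqz]
    rw [h1, h2, hF, Periodic.eq_cuspFunction hWR.ne' hPW]
    simp only [comp_apply]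
    have h3 : ofComplex (z + (w : ℂ)) = ModularGroup.T ^ w • (⟨z, hzim⟩ : ℍ) :=
      ofComplex_add_nat w ⟨z, hzim⟩
    rw [h3, hmul, ofComplex_apply_of_im_pos hzim]
  -- local normal form of `F`
  obtain ⟨u, hu, hu0, hFu⟩ := (meromorphicOrderAt_eq_int_iff hmeroF).mp hk
  have hmulT : Tendsto (fun t : ℂ => ω * t) (𝓝[≠] 0) (𝓝[≠] 0) := by
    apply tendsto_nhdsWithin_of_tendsto_nhds_of_eventually_within
    · have : Tendsto (fun t : ℂ => ω * t) (𝓝 0) (𝓝 (ω * 0)) :=
        (continuous_const.mul continuous_id).continuousAt.tendsto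
      rw [mul_zero] at this
      exact this.mono_left nhdsWithin_le_nhds
    · filter_upwards [self_mem_nhdsWithin] with t ht
      exact mul_ne_zero hω0 ht
  have hball : ∀ᶠ t in 𝓝[≠] (0 : ℂ), ‖t‖ < 1 := by
    have : ∀ᶠ t in 𝓝 (0 : ℂ), ‖t‖ < 1 := by
      have h := Metric.ball_mem_nhds (0 : ℂ) one_pos
      filter_upwards [h] with t ht
      simpa [Metric.mem_ball, dist_zero_right] using ht
    exact this.filter_mono nhdsWithin_le_nhds
  have hev : ∀ᶠ t in 𝓝[≠] (0 : ℂ), ω ^ k * u (ω * t) = ζ * u t := by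
    filter_upwards [hFu, hmulT.eventually hFu, hball, self_mem_nhdsWithin] with t h1 h2 h3 h4
    have ht0 : t ≠ 0 := h4
    have hb := hB t ht0 h3
    rw [h1, h2] at hb
    simp only [sub_zero, smul_eq_mul] at hb
    rw [mul_zpow, mul_assoc, mul_left_comm ζ] at hb
    have htk : t ^ k ≠ 0 := zpow_ne_zero _ ht0
    have := mul_left_cancel₀ htk (by rw [← hb]; ring : t ^ k * (ω ^ k * u (ω * t)) = t ^ k * (ζ * u t))
    exact this
  have hc1 : ContinuousAt (fun t => ω ^ k * u (ω * t)) 0 := by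
    refine continuousAt_const.mul ?_
    have h0 : ContinuousAt u (ω * 0) := by rw [mul_zero]; exact hu.continuousAt
    exact ContinuousAt.comp (f := fun t : ℂ => ω * t) (g := u) h0
      (continuous_const.mul continuous_id).continuousAt
  have hc2 : ContinuousAt (fun t => ζ * u t) 0 := continuousAt_const.mul hu.continuousAt
  have hlim := tendsto_nhds_unique_of_eventuallyEq
    (hc1.tendsto.mono_left nhdsWithin_le_nhds) (hc2.tendsto.mono_left nhdsWithin_le_nhds) hev
  simp only [mul_zero] at hlim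
  have hζω : ζ = ω ^ k := (mul_right_cancel₀ hu0 hlim).symm
  rw [hζω, hkd, zpow_mul, zpow_natCast, hωm, one_zpow]

end Fermat.Agent.H50

end
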