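import Fermat.Agent.H23.EsA.Lemmas
import Fermat.Agent.H50.EsACuspRoot

/-!
# P-ES / ES-A/LOC (helper50): CUSP-POW and CUSP-ROOT in the interface shapes of helper23
-/

set_option autoImplicit false

open UpperHalfPlane
open scoped MatrixGroups Manifold

namespace Fermat.Agent.H50

/-- **[CUSP-POW]**. -/
theorem cuspPow : Fermat.Agent.H23.EsA.CuspPowStatement := by
  intro m w hw H hH hH0 hper hgrow
  obtain ⟨M, C, Y, hg⟩ := hgrow
  exact cuspOrd_pow_core m w hw hH hH0 hper M C Y hg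

/-- **[CUSP-ROOT]**. -/
theorem cuspRoot : Fermat.Agent.H23.EsA.CuspRootStatement := by
  intro m w hm hw H hH hH0 hgrow ζ hζ hmul hd
  obtain ⟨M, C, Y, hg⟩ := hgrow
  obtain ⟨d, hd⟩ := hd
  exact cusp_root_core m w hm hw hH hH0 M C Y hg ζ hζ hmul d hd

end Fermat.Agent.H50
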