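import Mathlib

/-!
# Abstract height algebra for the Hasse relation (P-S52, WP-B3 + WP-B6)

A function `d : G → ℤ` on an abelian group satisfying the parallelogram law
`d (P + Q) + d (P - Q) = 2 d P + 2 d Q` is a quadratic form: the polar form
`B P Q = d (P + Q) - d P - d Q` is biadditive.  As a consequence the "Hasse point"
`Φ₂ - t • Φ + ℓ • P₀` has height zero as soon as the six heights
`d P₀ = 1`, `d Φ = ℓ`, `d Φ₂ = ℓ²`, `d (Φ - P₀) = ℓ + 1 - t`,
`d (Φ₂ - Φ) = ℓ (ℓ + 1 - t)`, `d (Φ₂ - 2Φ + P₀) = (ℓ + 1 - t)²` are known.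
-/

namespace Fermat.Agent.H50

section QuadHeight

variable {G : Type*} [AddCommGroup G] {d : G → ℤ}

/-- The parallelogram law for an integer valued function on an abelian group. -/
def ParLaw (d : G → ℤ) : Prop :=
  ∀ P Q : G, d (P + Q) + d (P - Q) = 2 * d P + 2 * d Q

/-- The polar form of `d`. -/
def polar (d : G → ℤ) (P Q : G) : ℤ := d (P + Q) - d P - d Q

theorem ParLaw.map_zero (h : ParLaw d) : d 0 = 0 := by
  have := h 0 0
  simp only [add_zero, sub_zero] at this
  omega

theorem ParLaw.map_neg (h : ParLaw d) (P : G) : d (-P) = d P := by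
  have h1 := h 0 P
  have h0 := h.map_zero
  simp only [zero_add, zero_sub] at h1
  omega

theorem ParLaw.map_sub_comm (h : ParLaw d) (P Q : G) : d (P - Q) = d (Q - P) := by
  rw [← h.map_neg (P - Q), neg_sub]

theorem ParLaw.map_two_nsmul (h : ParLaw d) (P : G) : d (P + P) = 4 * d P := by
  have h1 := h P P
  have h0 := h.map_zero
  simp only [sub_self] at h1
  omega

/-- The cube identity. -/
theorem ParLaw.map_add_add (h : ParLaw d) (P Q R : G) :
    d (P + Q + R) = d (P + Q) + d (P + R) + d (Q + R) - d P - d Q - d R := by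
  have e1 := h (P + Q) R
  have e2 := h (P - R) Q
  have e3 := h P (Q + R)
  have e4 := h P R
  have a1 : P - R + Q = P + Q - R := by abel
  have a2 : P - R - Q = P - (Q + R) := by abel
  have a3 : P + (Q + R) = P + Q + R := by abel
  rw [a1, a2] at e2
  rw [a3] at e3
  omega

theorem polar_comm (d : G → ℤ) (P Q : G) : polar d P Q = polar d Q P := by
  unfold polar
  rw [add_comm P Q]
  ring

theorem ParLaw.polar_add_left (h : ParLaw d) (P P' Q : G) :
    polar d (P + P') Q = polar d P Q + polar d P' Q := by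
  unfold polar
  have := h.map_add_add P P' Q
  omega

theorem ParLaw.polar_add_right (h : ParLaw d) (P Q Q' : G) :
    polar d P (Q + Q') = polar d P Q + polar d P Q' := by
  rw [polar_comm, h.polar_add_left, polar_comm d Q, polar_comm d Q']

theorem ParLaw.polar_self (h : ParLaw d) (P : G) : polar d P P = 2 * d P := by
  unfold polar
  have := h.map_two_nsmul P
  omega

/-- The polar form as an additive map in the first variable. -/
def ParLaw.polarHom (h : ParLaw d) (Q : G) : G →+ ℤ :=
  AddMonoidHom.mk' (fun P => polar d P Q) (fun P P' => h.polar_add_left P P' Q)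

theorem ParLaw.polar_zsmul_left (h : ParLaw d) (n : ℤ) (P Q : G) :
    polar d (n • P) Q = n * polar d P Q := by
  have := map_zsmul (h.polarHom Q) n P
  simpa [ParLaw.polarHom] using this

theorem ParLaw.polar_zsmul_right (h : ParLaw d) (n : ℤ) (P Q : G) :
    polar d P (n • Q) = n * polar d P Q := by
  rw [polar_comm, h.polar_zsmul_left, polar_comm]

theorem ParLaw.map_zsmul (h : ParLaw d) (n : ℤ) (P : G) : d (n • P) = n ^ 2 * d P := by
  have h1 := h.polar_self (n • P)
  rw [h.polar_zsmul_left, h.polar_zsmul_right, h.polar_self] at h1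
  have : 2 * d (n • P) = 2 * (n ^ 2 * d P) := by rw [← h1]; ring
  omega

theorem ParLaw.map_add (_h : ParLaw d) (P Q : G) : d (P + Q) = d P + d Q + polar d P Q := by
  unfold polar; ring

theorem ParLaw.map_sub (h : ParLaw d) (P Q : G) : d (P - Q) = d P + d Q - polar d P Q := by
  have := h P Q
  unfold polar
  omega

/-- The polar form in terms of `d (P - Q)`. -/
theorem ParLaw.polar_eq_of_sub (h : ParLaw d) (P Q : G) :
    polar d P Q = d P + d Q - d (P - Q) := by
  have := h.map_sub P Q
  omega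

/-- A function satisfying the parallelogram law is a quadratic form:
the value on `x • P + y • Q + z • R` is the expected quadratic polynomial in `x y z`. -/
theorem ParLaw.map_lincomb (h : ParLaw d) (x y z : ℤ) (P Q R : G) :
    d (x • P + y • Q + z • R) =
      x ^ 2 * d P + y ^ 2 * d Q + z ^ 2 * d R +
        x * y * polar d P Q + x * z * polar d P R + y * z * polar d Q R := by
  rw [h.map_add, h.map_add, h.polar_add_left, h.map_zsmul, h.map_zsmul, h.map_zsmul,
    h.polar_zsmul_left, h.polar_zsmul_right, h.polar_zsmul_left, h.polar_zsmul_right,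
    h.polar_zsmul_left, h.polar_zsmul_right]
  ring

/-- **Abstract Hasse relation (height form).**  If `d` satisfies the parallelogram law and the
six heights below have the values forced by multiplicativity of the degree and by Manin's
point count, then the Hasse point `Φ₂ - t • Φ + ℓ • P₀` has height `0`. -/
theorem height_hasse_eq_zero (hpar : ParLaw d) (P₀ Φ Φ₂ : G) (ℓ t : ℤ)
    (h0 : d P₀ = 1) (h1 : d Φ = ℓ) (h2 : d Φ₂ = ℓ ^ 2)
    (h3 : d (Φ - P₀) = ℓ + 1 - t)
    (h4 : d (Φ₂ - Φ) = ℓ * (ℓ + 1 - t))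
    (h5 : d (Φ₂ - (2 : ℤ) • Φ + P₀) = (ℓ + 1 - t) ^ 2) :
    d (Φ₂ - t • Φ + ℓ • P₀) = 0 := by
  -- Gram entries
  have w : polar d Φ P₀ = t := by
    have := hpar.polar_eq_of_sub Φ P₀
    rw [this, h0, h1, h3]; ring
  have u : polar d Φ₂ Φ = ℓ * t := by
    have := hpar.polar_eq_of_sub Φ₂ Φ
    rw [this, h1, h2, h4]; ring
  have e5 : Φ₂ - (2 : ℤ) • Φ + P₀ = (1 : ℤ) • Φ₂ + (-2 : ℤ) • Φ + (1 : ℤ) • P₀ := by
    rw [one_smul, one_smul, neg_smul]; abel
  have v : polar d Φ₂ P₀ = t ^ 2 - 2 * ℓ := by
    have := hpar.map_lincomb 1 (-2) 1 Φ₂ Φ P₀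
    rw [← e5, h5, h0, h1, h2, u, w] at this
    linear_combination -this
  have e6 : Φ₂ - t • Φ + ℓ • P₀ = (1 : ℤ) • Φ₂ + (-t) • Φ + ℓ • P₀ := by
    rw [one_smul, neg_smul]; abel
  rw [e6, hpar.map_lincomb, h0, h1, h2, u, v, w]
  ring

end QuadHeight

end Fermat.Agent.H50
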