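import Mathlib
import Fermat.Agent.H13.S14Defs

/-!
# P-S14 / C4d packaging (helper50)

From the *core* splitting lemma (helper24's `exists_primes_over_of_pow_mod`, taken here as a
hypothesis `KummerCoreStatement`) we build the number field `M = K(γ^(1/p))` as an `AdjoinRoot`
and the injective map `e` from (degree-one primes `v` of `K` at which `γ` is a `p`-th power) `× Fin p`
to primes of `M` with the same absolute norm.
-/

set_option autoImplicit false

open scoped NumberField nonZeroDivisors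
open Polynomial IsDedekindDomain

namespace Fermat.Agent.H50

/-- The core splitting statement (exact shape of helper24's deliverable, at universe `Type`). -/
def KummerCoreStatement : Prop :=
  ∀ (p : ℕ) [Fact p.Prime] (K M : Type) [Field K] [NumberField K] [Field M] [NumberField M]
    [Algebra K M] (_ : Module.finrank K M = p) (ζ : 𝓞 K) (_ : IsPrimitiveRoot ζ p) (γ : 𝓞 K)
    (_ : IsUnit γ) (y : 𝓞 M) (_ : y ^ p = algebraMap (𝓞 K) (𝓞 M) γ)
    (_ : ¬ ∃ b : K, b ^ p = (γ : K)) (v : Ideal (𝓞 K)) (_ : v.IsPrime) (_ : v ≠ ⊥)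
    (_ : (p : 𝓞 K) ∉ v) (x : 𝓞 K) (_ : γ - x ^ p ∈ v),
    ∃ Q : Fin p → Ideal (𝓞 M), Function.Injective Q ∧
      ∀ i, (Q i).IsPrime ∧ Q i ≠ ⊥ ∧ (Q i).comap (algebraMap (𝓞 K) (𝓞 M)) = v ∧
        Ideal.absNorm (Q i) = Ideal.absNorm v

/-- The packaged splitting statement (row 151 of P-S14). -/
def KummerSplitStatement : Prop :=
  ∀ (p : ℕ) [Fact p.Prime] (K : Type) [Field K] [NumberField K]
    [IsCyclotomicExtension {p} ℚ K] (γ : 𝓞 K), IsUnit γ → (¬ ∃ x : 𝓞 K, x ^ p = γ) →
    ∃ (M : Type) (_ : Field M) (_ : NumberField M),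
      ∃ e : {v : HeightOneSpectrum (𝓞 K) // (Ideal.absNorm v.asIdeal).Prime ∧
              Ideal.absNorm v.asIdeal ≠ p ∧ Fermat.Agent.H13.IsPthPowerMod p γ v.asIdeal} × Fin p →
            HeightOneSpectrum (𝓞 M),
        Function.Injective e ∧ ∀ x, Ideal.absNorm (e x).asIdeal = Ideal.absNorm x.1.1.asIdeal

/-- If `γ` is not a `p`-th power in `𝓞 K`, it is not a `p`-th power in `K`. -/
theorem not_pow_field_of_not_pow_int {p : ℕ} (hp : 0 < p) {K : Type} [Field K] [NumberField K]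
    (γ : 𝓞 K) (hnp : ¬ ∃ x : 𝓞 K, x ^ p = γ) : ¬ ∃ b : K, b ^ p = (γ : K) := by
  rintro ⟨b, hb⟩
  have hint : IsIntegral ℤ b := by
    have h1 : IsIntegral ℤ (b ^ p) := by
      rw [hb]; exact NumberField.RingOfIntegers.isIntegral_coe γ
    exact IsIntegral.of_pow hp h1
  refine hnp ⟨IsIntegralClosure.mk' (𝓞 K) b hint, ?_⟩
  apply NumberField.RingOfIntegers.coe_injective
  rw [map_pow, IsIntegralClosure.algebraMap_mk']
  exact hb

/-- A prime ideal of prime absolute norm `≠ p` does not contain `p`. -/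
theorem natCast_not_mem_of_absNorm_prime {p : ℕ} (hp : p.Prime) {K : Type} [Field K]
    [NumberField K] (v : Ideal (𝓞 K)) [v.IsPrime] (h1 : (Ideal.absNorm v).Prime)
    (h2 : Ideal.absNorm v ≠ p) : (p : 𝓞 K) ∉ v := by
  intro hpv
  have hl : ((Ideal.absNorm v : ℕ) : 𝓞 K) ∈ v := Ideal.absNorm_mem v
  have hcop : Nat.Coprime (Ideal.absNorm v) p := (Nat.coprime_primes h1 hp).2 h2
  have h1' : (1 : 𝓞 K) ∈ v := by
    have hb := Nat.isCoprime_iff_coprime.2 hcop
    obtain ⟨a, b, hab⟩ := hb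
    have : (a : 𝓞 K) * ((Ideal.absNorm v : ℕ) : 𝓞 K) + (b : 𝓞 K) * ((p : ℕ) : 𝓞 K) = 1 := by
      have := congrArg (Int.cast : ℤ → 𝓞 K) hab
      push_cast at this
      exact this
    rw [← this]
    exact v.add_mem (v.mul_mem_left _ hl) (v.mul_mem_left _ hpv)
  exact (Ideal.IsPrime.ne_top inferInstance) ((Ideal.eq_top_iff_one v).2 h1')

end Fermat.Agent.H50

namespace Fermat.Agent.H50

/-- **C4d packaging, set form** (the shape consumed by the abstract Claim Z): for any set `S` of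
primes of `K` not containing `p` at which `γ` is a `p`-th power, there are a number field `M`
and an injective norm-preserving map `S × Fin p → primes of M`. -/
theorem exists_split_field_of_core (hcore : KummerCoreStatement)
    (p : ℕ) [Fact p.Prime] (K : Type) [Field K] [NumberField K] (ζ : K)
    (hζ : IsPrimitiveRoot ζ p) (γ : 𝓞 K) (hγ : IsUnit γ) (hnp : ¬ ∃ x : 𝓞 K, x ^ p = γ)
    (S : Set (HeightOneSpectrum (𝓞 K)))
    (hS : ∀ v ∈ S, ((p : ℕ) : 𝓞 K) ∉ v.asIdeal ∧ ∃ x : 𝓞 K, γ - x ^ p ∈ v.asIdeal) :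
    ∃ (M : Type) (_ : Field M) (_ : NumberField M)
      (e : S × Fin p → HeightOneSpectrum (𝓞 M)),
      Function.Injective e ∧ ∀ x, Ideal.absNorm (e x).asIdeal = Ideal.absNorm x.1.1.asIdeal := by
  have hp : p.Prime := Fact.out
  have hnpK := not_pow_field_of_not_pow_int hp.pos γ hnp
  have hirr : Irreducible (X ^ p - C (γ : K)) :=
    X_pow_sub_C_irreducible_of_prime hp (fun b hb => hnpK ⟨b, hb⟩)
  have hfact : Fact (Irreducible (X ^ p - C (γ : K))) := ⟨hirr⟩
  have hmonic : (X ^ p - C (γ : K)).Monic := monic_X_pow_sub_C _ hp.ne_zero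
  have hfin : Module.Finite K (AdjoinRoot (X ^ p - C (γ : K))) := hmonic.finite_adjoinRoot
  have hNF : NumberField (AdjoinRoot (X ^ p - C (γ : K))) :=
    NumberField.of_module_finite K (AdjoinRoot (X ^ p - C (γ : K)))
  have hdeg : Module.finrank K (AdjoinRoot (X ^ p - C (γ : K))) = p := by
    rw [(AdjoinRoot.powerBasis hirr.ne_zero).finrank, AdjoinRoot.powerBasis_dim,
      natDegree_X_pow_sub_C]
  -- the root, as an algebraic integer
  have hroot : (AdjoinRoot.root (X ^ p - C (γ : K))) ^ p =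
      algebraMap K (AdjoinRoot (X ^ p - C (γ : K))) (γ : K) := by
    have h := AdjoinRoot.eval₂_root (X ^ p - C (γ : K))
    simp only [eval₂_sub, eval₂_pow, eval₂_X, eval₂_C] at h
    rw [sub_eq_zero] at h
    rw [h]; rfl
  have hrint : IsIntegral ℤ (AdjoinRoot.root (X ^ p - C (γ : K))) := by
    have h1 : IsIntegral ℤ ((AdjoinRoot.root (X ^ p - C (γ : K))) ^ p) := by
      rw [hroot]
      exact (NumberField.RingOfIntegers.isIntegral_coe γ).algebraMap
    exact IsIntegral.of_pow hp.pos h1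
  let y : 𝓞 (AdjoinRoot (X ^ p - C (γ : K))) :=
    IsIntegralClosure.mk' (𝓞 (AdjoinRoot (X ^ p - C (γ : K)))) _ hrint
  have hy : y ^ p = algebraMap (𝓞 K) (𝓞 (AdjoinRoot (X ^ p - C (γ : K)))) γ := by
    apply NumberField.RingOfIntegers.coe_injective
    rw [map_pow, IsIntegralClosure.algebraMap_mk', hroot]
    rfl
  -- primitive root in `𝓞 K`
  have hζ' : IsPrimitiveRoot hζ.toInteger p := hζ.toInteger_isPrimitiveRoot
  -- choose the primes
  have key : ∀ v : S,
      ∃ Q : Fin p → Ideal (𝓞 (AdjoinRoot (X ^ p - C (γ : K)))), Function.Injective Q ∧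
        ∀ i, (Q i).IsPrime ∧ Q i ≠ ⊥ ∧
          (Q i).comap (algebraMap (𝓞 K) (𝓞 (AdjoinRoot (X ^ p - C (γ : K))))) = v.1.asIdeal ∧
          Ideal.absNorm (Q i) = Ideal.absNorm v.1.asIdeal := by
    rintro ⟨v, hvS⟩
    obtain ⟨hpv, x, hx⟩ := hS v hvS
    exact hcore p K (AdjoinRoot (X ^ p - C (γ : K))) hdeg hζ.toInteger hζ' γ hγ y hy hnpK
      v.asIdeal v.isPrime v.ne_bot hpv x hx
  choose Q hQinj hQ using key
  refine ⟨AdjoinRoot (X ^ p - C (γ : K)), inferInstance, hNF,
    fun x => ⟨Q x.1 x.2, (hQ x.1 x.2).1, (hQ x.1 x.2).2.1⟩, ?_, ?_⟩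
  · rintro ⟨v, i⟩ ⟨v', i'⟩ h
    have hQeq : Q v i = Q v' i' := congrArg HeightOneSpectrum.asIdeal h
    have hv : v = v' := by
      apply Subtype.ext
      apply HeightOneSpectrum.ext
      rw [← (hQ v i).2.2.1, ← (hQ v' i').2.2.1, hQeq]
    subst hv
    have := hQinj v hQeq
    rw [this]
  · rintro ⟨v, i⟩
    exact (hQ v i).2.2.2

/-- **C4d packaging, row-151 form**: the packaged splitting statement follows from the core
statement. -/
theorem kummer_split_of_core (hcore : KummerCoreStatement) : KummerSplitStatement := by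
  intro p _ K _ _ _ γ hγ hnp
  have hp : p.Prime := Fact.out
  have hζ : IsPrimitiveRoot (IsCyclotomicExtension.zeta p ℚ K) p :=
    IsCyclotomicExtension.zeta_spec p ℚ K
  obtain ⟨M, iF, iN, e, he, hN⟩ := exists_split_field_of_core hcore p K _ hζ γ hγ hnp
    {v : HeightOneSpectrum (𝓞 K) | (Ideal.absNorm v.asIdeal).Prime ∧
        Ideal.absNorm v.asIdeal ≠ p ∧ Fermat.Agent.H13.IsPthPowerMod p γ v.asIdeal}
    (fun v hv => ⟨by
      have := v.isPrime
      exact natCast_not_mem_of_absNorm_prime hp v.asIdeal hv.1 hv.2.1, hv.2.2⟩)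
  exact ⟨M, iF, iN, e, he, hN⟩

end Fermat.Agent.H50
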