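import Fermat.Agent.H50.S14Pack
import Fermat.Agent.H24.C4dCore

/-!
# P-S14 / C4d, unconditional (helper24's core + helper50's packaging)
-/

set_option autoImplicit false

open scoped NumberField nonZeroDivisors
open Polynomial IsDedekindDomain

namespace Fermat.Agent.H50

/-- helper24's core lemma, in the `Prop` shape used by the packaging. -/
theorem kummerCore : KummerCoreStatement :=
  fun p _ K M _ _ _ _ _ hdeg ζ hζ γ hγ y hy hnp v hv hv0 hpv x hx =>
    Fermat.Agent.H24.exists_primes_over_of_pow_mod p K M hdeg ζ hζ γ hγ y hy hnp v hv hv0 hpv x hx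

/-- **C4d** (row 151 shape), unconditional. -/
theorem kummerSplit : KummerSplitStatement := kummer_split_of_core kummerCore

/-- **C4d** (set shape), unconditional. -/
theorem exists_split_field_set (p : ℕ) [Fact p.Prime] (K : Type) [Field K] [NumberField K]
    (ζ : K) (hζ : IsPrimitiveRoot ζ p) (γ : 𝓞 K) (hγ : IsUnit γ) (hnp : ¬ ∃ x : 𝓞 K, x ^ p = γ)
    (S : Set (HeightOneSpectrum (𝓞 K)))
    (hS : ∀ v ∈ S, ((p : ℕ) : 𝓞 K) ∉ v.asIdeal ∧ ∃ x : 𝓞 K, γ - x ^ p ∈ v.asIdeal) :
    ∃ (M : Type) (_ : Field M) (_ : NumberField M)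
      (e : S × Fin p → HeightOneSpectrum (𝓞 M)),
      Function.Injective e ∧ ∀ x, Ideal.absNorm (e x).asIdeal = Ideal.absNorm x.1.1.asIdeal :=
  exists_split_field_of_core kummerCore p K ζ hζ γ hγ hnp S hS

end Fermat.Agent.H50
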