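import Mathlib
import Fermat.Prelude.Def_ModularCurve_ReductionModL
import Fermat.Agent.H66.ESD.GaussBar
import Fermat.Agent.H23.PlaceBasic

/-!
# P-ES row 368 (S18-ASM), part 1: integral series with reduction, closure and lifting

`L = ℚ̄`, `A` a valuation subring of `L`, `k` its residue field,
`F = modularFunctionFieldBar N ⊆ L((q))`, `F_k = modularFunctionFieldFullC k N ⊆ k((q))`.

* `S18IsRed N A f fk` : `f ∈ F` is (the image of) a series with coefficients in `A` whose
  coefficientwise reduction is `fk ∈ F_k`.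
* `s18_closure` : every divisor in the closure of the integral principal divisors is
  `div(f) - div(g)` with `f`, `g` integral with nonzero reductions `fk`, `gk`, and its push-forward
  under a place reduction is `div(fk) - div(gk)`.
* `s18_lift` : every element of `F_k` is a quotient of two reductions.
-/

set_option autoImplicit false
set_option synthInstance.maxHeartbeats 400000
set_option linter.unusedSectionVars false

open AlgebraicCurve ModularCurve

namespace Fermat.Agent.H50

noncomputable section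

variable (N : ℕ) (A : ValuationSubring (AlgebraicClosure ℚ))

/-- `f ∈ F` is an integral series whose reduction is `fk ∈ F_k`. -/
def S18IsRed (f : ↥(modularFunctionFieldBar N))
    (fk : ↥(modularFunctionFieldFullC (IsLocalRing.ResidueField ↥A) N)) : Prop :=
  ∃ a : LaurentSeries ↥A,
    (f : LaurentSeries (AlgebraicClosure ℚ)) = coeffMap A.subtype a ∧
    (fk : LaurentSeries (IsLocalRing.ResidueField ↥A)) = coeffMap (IsLocalRing.residue ↥A) a

variable {N A}

theorem s18IsRed_one : S18IsRed N A 1 1 :=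
  ⟨1, by rw [map_one]; rfl, by rw [map_one]; rfl⟩

theorem s18IsRed_zero : S18IsRed N A 0 0 :=
  ⟨0, by rw [map_zero]; rfl, by rw [map_zero]; rfl⟩

theorem S18IsRed.mul {f g : ↥(modularFunctionFieldBar N)}
    {fk gk : ↥(modularFunctionFieldFullC (IsLocalRing.ResidueField ↥A) N)}
    (h1 : S18IsRed N A f fk) (h2 : S18IsRed N A g gk) : S18IsRed N A (f * g) (fk * gk) := by
  obtain ⟨a, ha, hak⟩ := h1
  obtain ⟨b, hb, hbk⟩ := h2
  refine ⟨a * b, ?_, ?_⟩
  · rw [map_mul, ← ha, ← hb]
    rfl
  · rw [map_mul, ← hak, ← hbk]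
    rfl

theorem S18IsRed.add {f g : ↥(modularFunctionFieldBar N)}
    {fk gk : ↥(modularFunctionFieldFullC (IsLocalRing.ResidueField ↥A) N)}
    (h1 : S18IsRed N A f fk) (h2 : S18IsRed N A g gk) : S18IsRed N A (f + g) (fk + gk) := by
  obtain ⟨a, ha, hak⟩ := h1
  obtain ⟨b, hb, hbk⟩ := h2
  refine ⟨a + b, ?_, ?_⟩
  · rw [map_add, ← ha, ← hb]
    rfl
  · rw [map_add, ← hak, ← hbk]
    rfl

theorem S18IsRed.pow {f : ↥(modularFunctionFieldBar N)}
    {fk : ↥(modularFunctionFieldFullC (IsLocalRing.ResidueField ↥A) N)}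
    (h1 : S18IsRed N A f fk) (n : ℕ) : S18IsRed N A (f ^ n) (fk ^ n) := by
  induction n with
  | zero =>
    rw [pow_zero, pow_zero]
    exact s18IsRed_one
  | succ n ih =>
    rw [pow_succ, pow_succ]
    exact ih.mul h1

theorem S18IsRed.ne_zero {f : ↥(modularFunctionFieldBar N)}
    {fk : ↥(modularFunctionFieldFullC (IsLocalRing.ResidueField ↥A) N)}
    (h1 : S18IsRed N A f fk) (hk : fk ≠ 0) : f ≠ 0 := by
  obtain ⟨a, ha, hak⟩ := h1
  intro hf
  apply hk
  have h0 : a = 0 := by
    apply Fermat.Agent.H66.vIota_injective A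
    show coeffMap A.subtype a = coeffMap A.subtype 0
    rw [← ha, map_zero, hf]
    rfl
  apply Subtype.ext
  rw [hak, h0, map_zero]
  rfl

/-- constants of `A` -/
theorem s18IsRed_const (c : ↥A) :
    S18IsRed N A (algebraMap (AlgebraicClosure ℚ) ↥(modularFunctionFieldBar N) (c : AlgebraicClosure ℚ))
      (algebraMap (IsLocalRing.ResidueField ↥A)
        ↥(modularFunctionFieldFullC (IsLocalRing.ResidueField ↥A) N) (IsLocalRing.residue ↥A c)) := by
  refine ⟨HahnSeries.C c, ?_, ?_⟩
  · exact Fermat.Agent.H66.algebraMap_eq_vIota A c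
  · exact (Fermat.Agent.H66.vRho_C A c).symm

/-- the generators `j(q^d)`, `d ∣ N` -/
theorem s18IsRed_gen {d : ℕ} [NeZero d] (hd : d ∣ N) :
    S18IsRed N A
      ⟨qExpand (AlgebraicClosure ℚ) d (jqModC (AlgebraicClosure ℚ)),
        Fermat.Agent.H66.qExpand_jqModC_mem_bar N hd⟩
      ⟨qExpand (IsLocalRing.ResidueField ↥A) d (jqModC (IsLocalRing.ResidueField ↥A)),
        jqModCd_mem_full (IsLocalRing.ResidueField ↥A) N hd⟩ := by
  refine ⟨qExpand ↥A d (jqModC ↥A), ?_, ?_⟩
  · exact Fermat.Agent.H66.qExpand_jqModC_eq_vIota A d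
  · exact (Fermat.Agent.H66.vRho_qExpand_jqModC A d).symm

/-- **Lifting**: every element of `F_k` is a quotient of two reductions of integral series of
`F`. -/
theorem s18_lift (x : LaurentSeries (IsLocalRing.ResidueField ↥A))
    (hx : x ∈ modularFunctionFieldFullC (IsLocalRing.ResidueField ↥A) N) :
    ∃ (f g : ↥(modularFunctionFieldBar N))
      (fk gk : ↥(modularFunctionFieldFullC (IsLocalRing.ResidueField ↥A) N)),
      S18IsRed N A f fk ∧ S18IsRed N A g gk ∧ gk ≠ 0 ∧
        x * (gk : LaurentSeries (IsLocalRing.ResidueField ↥A)) =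
          (fk : LaurentSeries (IsLocalRing.ResidueField ↥A)) := by
  rw [modularFunctionFieldFullC] at hx
  induction hx using IntermediateField.adjoin_induction with
  | mem x hx =>
    obtain ⟨d, hd, hdN, rfl⟩ := hx
    have := hd
    exact ⟨_, 1, _, 1, s18IsRed_gen hdN, s18IsRed_one, one_ne_zero, by
      rw [OneMemClass.coe_one, mul_one]⟩
  | algebraMap c =>
    obtain ⟨a, rfl⟩ := IsLocalRing.residue_surjective c
    exact ⟨_, 1, _, 1, s18IsRed_const a, s18IsRed_one, one_ne_zero, by
      rw [OneMemClass.coe_one, mul_one]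
      rfl⟩
  | add x y _ _ hx hy =>
    obtain ⟨f, g, fk, gk, hf, hg, hgk, hxe⟩ := hx
    obtain ⟨f', g', fk', gk', hf', hg', hgk', hye⟩ := hy
    refine ⟨f * g' + f' * g, g * g', fk * gk' + fk' * gk, gk * gk',
      (hf.mul hg').add (hf'.mul hg), hg.mul hg', mul_ne_zero hgk hgk', ?_⟩
    push_cast
    rw [← hxe, ← hye]
    ring
  | inv x _ hx =>
    obtain ⟨f, g, fk, gk, hf, hg, hgk, hxe⟩ := hx
    by_cases hfk : fk = 0
    · have hx0 : x = 0 := by
        have h1 : x * (gk : LaurentSeries (IsLocalRing.ResidueField ↥A)) = 0 := by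
          rw [hxe, hfk]
          rfl
        rcases mul_eq_zero.mp h1 with h2 | h2
        · exact h2
        · exact absurd (Subtype.ext h2) hgk
      refine ⟨0, 1, 0, 1, s18IsRed_zero, s18IsRed_one, one_ne_zero, ?_⟩
      rw [hx0, inv_zero, zero_mul]
      rfl
    · refine ⟨g, f, gk, fk, hg, hf, hfk, ?_⟩
      have hfk' : (fk : LaurentSeries (IsLocalRing.ResidueField ↥A)) ≠ 0 := fun h =>
        hfk (Subtype.ext h)
      have hx0 : x ≠ 0 := by
        intro h0
        rw [h0, zero_mul] at hxe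
        exact hfk' hxe.symm
      rw [← hxe]
      field_simp
  | mul x y _ _ hx hy =>
    obtain ⟨f, g, fk, gk, hf, hg, hgk, hxe⟩ := hx
    obtain ⟨f', g', fk', gk', hf', hg', hgk', hye⟩ := hy
    refine ⟨f * f', g * g', fk * fk', gk * gk', hf.mul hf', hg.mul hg',
      mul_ne_zero hgk hgk', ?_⟩
    push_cast
    rw [← hxe, ← hye]
    ring

/-- `ord` of a natural power. -/
theorem s18_ord_pow {K F : Type*} [Field K] [Field F] [Algebra K F] (v : Place K F) (f : F)
    (n : ℕ) : v.ord (f ^ n) = (n : ℤ) * v.ord f := by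
  rw [← zpow_natCast, v.ord_zpow]

/-- **Closure**: every divisor in the closure of the integral principal divisors is
`div f - div g` for integral `f`, `g` with nonzero reductions, compatibly with `r`. -/
theorem s18_closure
    (r : Place (AlgebraicClosure ℚ) ↥(modularFunctionFieldBar N) →
      Place (IsLocalRing.ResidueField ↥A)
        ↥(modularFunctionFieldFullC (IsLocalRing.ResidueField ↥A) N))
    (hr : IsPlaceReductionModL A N r)
    (E : Divisor (AlgebraicClosure ℚ) ↥(modularFunctionFieldBar N))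
    (hE : E ∈ AddSubgroup.closure (integralPrincipalDivisors A (IsLocalRing.residue ↥A) N)) :
    ∃ (f g : ↥(modularFunctionFieldBar N))
      (fk gk : ↥(modularFunctionFieldFullC (IsLocalRing.ResidueField ↥A) N)),
      S18IsRed N A f fk ∧ S18IsRed N A g gk ∧ fk ≠ 0 ∧ gk ≠ 0 ∧
      (∀ P, E P = P.ord f - P.ord g) ∧
      ∀ Q, Finsupp.mapDomain r E Q = Q.ord fk - Q.ord gk := by
  induction hE using AddSubgroup.closure_induction with
  | mem E hE =>
    obtain ⟨Y, hY, hYk, hne, hE⟩ := hE
    refine ⟨⟨_, hY⟩, 1, ⟨_, hYk⟩, 1, ⟨Y, rfl, rfl⟩, s18IsRed_one,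
      fun h => hne (congrArg Subtype.val h), one_ne_zero, fun P => ?_, fun Q => ?_⟩
    · rw [hE P, Place.ord_one, sub_zero]
    · rw [hr.2 Y hY hYk hne E hE Q, Place.ord_one, sub_zero]
  | zero =>
    refine ⟨1, 1, 1, 1, s18IsRed_one, s18IsRed_one, one_ne_zero, one_ne_zero,
      fun P => ?_, fun Q => ?_⟩
    · rw [Place.ord_one, sub_zero, Finsupp.zero_apply]
    · rw [Finsupp.mapDomain_zero, Finsupp.zero_apply, Place.ord_one, sub_zero]
  | add E E' _ _ hE hE' =>
    obtain ⟨f, g, fk, gk, hf, hg, hfk, hgk, h1, h2⟩ := hE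
    obtain ⟨f', g', fk', gk', hf', hg', hfk', hgk', h1', h2'⟩ := hE'
    refine ⟨f * f', g * g', fk * fk', gk * gk', hf.mul hf', hg.mul hg',
      mul_ne_zero hfk hfk', mul_ne_zero hgk hgk', fun P => ?_, fun Q => ?_⟩
    · rw [Finsupp.add_apply, h1 P, h1' P, P.ord_mul (hf.ne_zero hfk) (hf'.ne_zero hfk'),
        P.ord_mul (hg.ne_zero hgk) (hg'.ne_zero hgk')]
      ring
    · rw [Finsupp.mapDomain_add, Finsupp.add_apply, h2 Q, h2' Q, Q.ord_mul hfk hfk',
        Q.ord_mul hgk hgk']
      ring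
  | neg E _ hE =>
    obtain ⟨f, g, fk, gk, hf, hg, hfk, hgk, h1, h2⟩ := hE
    refine ⟨g, f, gk, fk, hg, hf, hgk, hfk, fun P => ?_, fun Q => ?_⟩
    · rw [Finsupp.neg_apply, h1 P]
      ring
    · have h0 : Finsupp.mapDomain r (-E) = -Finsupp.mapDomain r E := by
        rw [← Finsupp.mapDomain.addMonoidHom_apply, map_neg, Finsupp.mapDomain.addMonoidHom_apply]
      rw [h0, Finsupp.neg_apply, h2 Q]
      ring

end

end Fermat.Agent.H50
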