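import Mathlib
import Fermat.Prelude.Def_ModularCurve_ReductionModL
import Fermat.Agent.H22.ES.Interfaces
import Fermat.Agent.H66.ESD.GaussInputs
import Fermat.Agent.H16.ESDRRModL
import Fermat.Agent.H50.S18AsmCore

/-!
# P-ES row 368 (S18-ASM): S18 from the KEY LEMMA

`s18_of_keyLemma` : `KeyLemmaStatement N ℓ` implies the statement of S18 at `(N, ℓ)`.

Proof.  `z = [D]`, `m D = div(f₀)`; by `PrincipalGeneratedByIntegral`, `m D = div f - div g` with
`f`, `g` integral with nonzero reductions `fk`, `gk ∈ F_k` and `r_*(m D) = div fk - div gk`.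
`reductionModL z = 0` gives `r_* D = div x̄`, so `fk / (gk x̄^m)` has trivial divisor and is a
constant `c̄` (Riemann package of `F_k`).  Lift `x̄ = x₁ / x₂` (reductions of `X₁`, `X₂`) and
`c̄` to `c ∈ A`.  The key lemma applied to `a' = f X₂^m`, `b' = c g X₁^m` gives `w` with
`w^m b' = a'`, and then `D = div (w X₁ / X₂)`.
-/

set_option autoImplicit false
set_option synthInstance.maxHeartbeats 400000
set_option linter.unusedSectionVars false

open AlgebraicCurve ModularCurve

namespace Fermat.Agent.H50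

noncomputable section

/-- a function of `F_k` without zeros and poles is constant (for `ℓ ∤ N`). -/
theorem s18_const_of_ord_eq_zero (N : ℕ) [NeZero N] {ℓ : ℕ} [Fact ℓ.Prime] (hℓN : ¬ ℓ ∣ N)
    (A : ValuationSubring (AlgebraicClosure ℚ)) (hA : A.LiesOverPrime ℓ)
    (u : ↥(modularFunctionFieldFullC (IsLocalRing.ResidueField ↥A) N))
    (hu : ∀ Q : Place (IsLocalRing.ResidueField ↥A)
      ↥(modularFunctionFieldFullC (IsLocalRing.ResidueField ↥A) N), Q.ord u = 0) :
    ∃ c : IsLocalRing.ResidueField ↥A,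
      u = algebraMap (IsLocalRing.ResidueField ↥A)
        ↥(modularFunctionFieldFullC (IsLocalRing.ResidueField ↥A) N) c := by
  obtain ⟨hac, hrr⟩ := Fermat.Agent.H16.rrModLStatement N ℓ hℓN A hA
  have := hac
  have hinf : Infinite (IsLocalRing.ResidueField ↥A) := IsAlgClosed.instInfinite
  exact Fermat.Agent.H66.exists_const_of_ord_eq_zero
    (Fermat.Agent.H27.ESD.riemannPackage_of_rrHyp hrr).finrank_zero u hu

/-- **S18 from the key lemma.** -/
theorem s18_of_keyLemma (N : ℕ) [NeZero N] {ℓ : ℕ} [Fact ℓ.Prime] (hℓN : ¬ ℓ ∣ N)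
    (hKL : Fermat.Agent.H22.ES.KeyLemmaStatement N ℓ)
    (A : ValuationSubring (AlgebraicClosure ℚ)) (hA : A.LiesOverPrime ℓ)
    (h : ModularCurve.ReductionInputsModL A N) (m : ℕ) (hm : ¬ ℓ ∣ m) (z : ModularCurve.JZero N)
    (hmz : m • z = 0) (hz : ModularCurve.reductionModL A N z = 0) :
    z = 0 := by
  have hm0 : m ≠ 0 := fun h0 => hm (h0 ▸ dvd_zero ℓ)
  have hmZ : (m : ℤ) ≠ 0 := Int.natCast_ne_zero.mpr hm0
  obtain ⟨D, rfl⟩ := Pic0.mk_surjective z
  rw [reductionModL_mk h D] at hz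
  have hr := isPlaceReductionModL_placeReductionModL h
  have hgen : PrincipalGeneratedByIntegral A (IsLocalRing.residue ↥A) N := h.choose_spec.2
  -- the reduction of `D` is principal
  have hz' : Finsupp.mapDomain (placeReductionModL h)
      (D : Divisor (AlgebraicClosure ℚ) ↥(modularFunctionFieldBar N)) ∈
        Divisor.principal (K := IsLocalRing.ResidueField ↥A)
          (F := ↥(modularFunctionFieldFullC (IsLocalRing.ResidueField ↥A) N)) := by
    have h1 := (QuotientAddGroup.eq_zero_iff _).mp hz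
    rw [AddSubgroup.mem_addSubgroupOf] at h1
    exact h1
  -- `m D` is principal
  have hmD : m • (D : Divisor (AlgebraicClosure ℚ) ↥(modularFunctionFieldBar N)) ∈
      Divisor.principal (K := AlgebraicClosure ℚ) (F := ↥(modularFunctionFieldBar N)) := by
    have h1 : (QuotientAddGroup.mk (m • D) : Pic0 (AlgebraicClosure ℚ)
        ↥(modularFunctionFieldBar N)) = 0 := by
      rw [QuotientAddGroup.mk_nsmul]
      exact hmz
    have h2 := (QuotientAddGroup.eq_zero_iff _).mp h1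
    rw [AddSubgroup.mem_addSubgroupOf] at h2
    exact h2
  obtain ⟨f, g, fk, gk, hf, hg, hfk, hgk, hE1, hE2⟩ :=
    s18_closure (placeReductionModL h) hr _ (hgen hmD)
  obtain ⟨xb, hxb, hxD⟩ := hz'
  -- push-forward of `m D`
  have hE2' : ∀ Q : Place (IsLocalRing.ResidueField ↥A)
      ↥(modularFunctionFieldFullC (IsLocalRing.ResidueField ↥A) N),
      (m : ℤ) * Q.ord xb = Q.ord fk - Q.ord gk := by
    intro Q
    have e1 : Finsupp.mapDomain (placeReductionModL h)
        (m • (D : Divisor (AlgebraicClosure ℚ) ↥(modularFunctionFieldBar N))) =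
        m • Finsupp.mapDomain (placeReductionModL h)
          (D : Divisor (AlgebraicClosure ℚ) ↥(modularFunctionFieldBar N)) :=
      map_nsmul (Finsupp.mapDomain.addMonoidHom (placeReductionModL h)) m _
    rw [← hE2 Q, e1, Finsupp.smul_apply, nsmul_eq_mul, hxD Q]
  have hE1' : ∀ P : Place (AlgebraicClosure ℚ) ↥(modularFunctionFieldBar N), (m : ℤ) *
      (D : Divisor (AlgebraicClosure ℚ) ↥(modularFunctionFieldBar N)) P = P.ord f - P.ord g := by
    intro P
    rw [← hE1 P, Finsupp.smul_apply, nsmul_eq_mul]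
  -- the constant
  have hden : gk * xb ^ m ≠ 0 := mul_ne_zero hgk (pow_ne_zero m hxb)
  obtain ⟨cb, hcb⟩ := s18_const_of_ord_eq_zero N hℓN A hA (fk * (gk * xb ^ m)⁻¹) (fun Q => by
    rw [Q.ord_mul hfk (inv_ne_zero hden), Q.ord_inv, Q.ord_mul hgk (pow_ne_zero m hxb),
      s18_ord_pow, hE2' Q]
    ring)
  have hfkeq : fk = algebraMap (IsLocalRing.ResidueField ↥A)
      ↥(modularFunctionFieldFullC (IsLocalRing.ResidueField ↥A) N) cb * (gk * xb ^ m) := by
    rw [← hcb, mul_assoc, inv_mul_cancel₀ hden, mul_one]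
  have hcb0 : algebraMap (IsLocalRing.ResidueField ↥A)
      ↥(modularFunctionFieldFullC (IsLocalRing.ResidueField ↥A) N) cb ≠ 0 := by
    intro h0
    rw [h0, zero_mul] at hfkeq
    exact hfk hfkeq
  -- lifts
  obtain ⟨c, rfl⟩ := IsLocalRing.residue_surjective cb
  obtain ⟨X₁, X₂, x₁, x₂, hX₁, hX₂, hx₂, hxe⟩ := s18_lift (N := N) (A := A)
    (xb : LaurentSeries (IsLocalRing.ResidueField ↥A)) xb.2
  have hxe' : xb * x₂ = x₁ := Subtype.ext hxe
  have hx₁ : x₁ ≠ 0 := by
    rw [← hxe']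
    exact mul_ne_zero hxb hx₂
  have hC := s18IsRed_const (N := N) (A := A) c
  have hf0 := hf.ne_zero hfk
  have hg0 := hg.ne_zero hgk
  have hX₁0 := hX₁.ne_zero hx₁
  have hX₂0 := hX₂.ne_zero hx₂
  have hC0 := hC.ne_zero hcb0
  -- the two integral series
  have ha' := hf.mul (hX₂.pow m)
  have hb' := (hC.mul hg).mul (hX₁.pow m)
  have hak0 : fk * x₂ ^ m ≠ 0 := mul_ne_zero hfk (pow_ne_zero m hx₂)
  have hredeq : fk * x₂ ^ m = algebraMap (IsLocalRing.ResidueField ↥A)
      ↥(modularFunctionFieldFullC (IsLocalRing.ResidueField ↥A) N) (IsLocalRing.residue ↥A c)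
        * gk * x₁ ^ m := by
    rw [hfkeq, ← hxe', mul_pow]
    ring
  obtain ⟨sa, hsa, hsak⟩ := ha'
  obtain ⟨sb, hsb, hsbk⟩ := hb'
  have hsaF : coeffMap A.subtype sa ∈ modularFunctionFieldBar N := by
    rw [← hsa]
    exact (f * X₂ ^ m).2
  have hsbF : coeffMap A.subtype sb ∈ modularFunctionFieldBar N := by
    rw [← hsb]
    exact (algebraMap (AlgebraicClosure ℚ) ↥(modularFunctionFieldBar N)
      (c : AlgebraicClosure ℚ) * g * X₁ ^ m).2
  have hsaE : (⟨coeffMap A.subtype sa, hsaF⟩ : ↥(modularFunctionFieldBar N)) = f * X₂ ^ m :=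
    Subtype.ext hsa.symm
  have hsbE : (⟨coeffMap A.subtype sb, hsbF⟩ : ↥(modularFunctionFieldBar N)) =
      algebraMap (AlgebraicClosure ℚ) ↥(modularFunctionFieldBar N)
        (c : AlgebraicClosure ℚ) * g * X₁ ^ m :=
    Subtype.ext hsb.symm
  have horda : ∀ P : Place (AlgebraicClosure ℚ) ↥(modularFunctionFieldBar N),
      P.ord (f * X₂ ^ m) = P.ord f + (m : ℤ) * P.ord X₂ := by
    intro P
    rw [P.ord_mul hf0 (pow_ne_zero m hX₂0), s18_ord_pow]
  have hordb : ∀ P : Place (AlgebraicClosure ℚ) ↥(modularFunctionFieldBar N),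
      P.ord (algebraMap (AlgebraicClosure ℚ) ↥(modularFunctionFieldBar N)
        (c : AlgebraicClosure ℚ) * g * X₁ ^ m) = P.ord g + (m : ℤ) * P.ord X₁ := by
    intro P
    rw [P.ord_mul (mul_ne_zero hC0 hg0) (pow_ne_zero m hX₁0), P.ord_mul hC0 hg0,
      Fermat.Agent.H23.ord_algebraMap, zero_add, s18_ord_pow]
  obtain ⟨w, hw⟩ := hKL A hA m (Nat.pos_of_ne_zero hm0) hm sa sb hsaF hsbF
    (by rw [← hsak, ← hsbk, hredeq])
    (by
      rw [← hsak]
      exact fun h0 => hak0 (Subtype.ext h0))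
    (fun P => by
      rw [hsaE, hsbE, horda P, hordb P]
      refine ⟨(D : Divisor (AlgebraicClosure ℚ) ↥(modularFunctionFieldBar N)) P
        + P.ord X₂ - P.ord X₁, ?_⟩
      have := hE1' P
      linear_combination -this)
  rw [hsaE, hsbE] at hw
  have hw0 : w ≠ 0 := by
    intro h0
    rw [h0, zero_pow hm0, zero_mul] at hw
    exact mul_ne_zero hf0 (pow_ne_zero m hX₂0) hw.symm
  -- conclusion
  refine (QuotientAddGroup.eq_zero_iff _).mpr ?_
  rw [AddSubgroup.mem_addSubgroupOf]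
  refine ⟨w * X₁ * X₂⁻¹, mul_ne_zero (mul_ne_zero hw0 hX₁0) (inv_ne_zero hX₂0), fun P => ?_⟩
  rw [P.ord_mul (mul_ne_zero hw0 hX₁0) (inv_ne_zero hX₂0), P.ord_mul hw0 hX₁0, P.ord_inv]
  have h1 := congrArg P.ord hw
  rw [P.ord_mul (pow_ne_zero m hw0) (mul_ne_zero (mul_ne_zero hC0 hg0) (pow_ne_zero m hX₁0)),
    s18_ord_pow, horda P, hordb P] at h1
  have h2 := hE1' P
  have h3 : (m : ℤ) * ((D : Divisor (AlgebraicClosure ℚ) ↥(modularFunctionFieldBar N)) P) =
      (m : ℤ) * (P.ord w + P.ord X₁ + -P.ord X₂) := by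
    linear_combination h2 - h1
  exact mul_left_cancel₀ hmZ h3

end

end Fermat.Agent.H50
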