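import Mathlib
import Fermat.Prelude.Def_FLTPrelim_ModularRep
import Fermat.Agent.H50.Descent15
import Fermat.Agent.H89.X015Main
import Fermat.Agent.H37.ThreeTorsionQ

/-!
# S51: final glue, with the 5-torsion input (A5) as an explicit hypothesis
-/

set_option autoImplicit false

namespace Fermat.Agent.H50

open WeierstrassCurve

/-- The exact shape of the 5-torsion input (A5) consumed by the glue. -/
def A5Prop : Prop :=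
  ∀ (W : WeierstrassCurve ℤ), W.Δ ≠ 0 → ¬ W.ModRepIsIrreducible 5 →
    ∃ x₁ x₂ : AlgebraicClosure ℚ, x₁ ≠ x₂ ∧
      4 * x₁ ^ 3 + (W.b₂ : AlgebraicClosure ℚ) * x₁ ^ 2 + 2 * (W.b₄ : AlgebraicClosure ℚ) * x₁
        + (W.b₆ : AlgebraicClosure ℚ) ≠ 0 ∧
      4 * x₂ ^ 3 + (W.b₂ : AlgebraicClosure ℚ) * x₂ ^ 2 + 2 * (W.b₄ : AlgebraicClosure ℚ) * x₂
        + (W.b₆ : AlgebraicClosure ℚ) ≠ 0 ∧
      x₂ * (4 * x₁ ^ 3 + (W.b₂ : AlgebraicClosure ℚ) * x₁ ^ 2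
          + 2 * (W.b₄ : AlgebraicClosure ℚ) * x₁ + (W.b₆ : AlgebraicClosure ℚ))
        = x₁ ^ 4 - (W.b₄ : AlgebraicClosure ℚ) * x₁ ^ 2 - 2 * (W.b₆ : AlgebraicClosure ℚ) * x₁
          - (W.b₈ : AlgebraicClosure ℚ) ∧
      x₁ * (4 * x₂ ^ 3 + (W.b₂ : AlgebraicClosure ℚ) * x₂ ^ 2
          + 2 * (W.b₄ : AlgebraicClosure ℚ) * x₂ + (W.b₆ : AlgebraicClosure ℚ))
        = x₂ ^ 4 - (W.b₄ : AlgebraicClosure ℚ) * x₂ ^ 2 - 2 * (W.b₆ : AlgebraicClosure ℚ) * x₂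
          - (W.b₈ : AlgebraicClosure ℚ) ∧
      ∃ s p : ℚ, algebraMap ℚ (AlgebraicClosure ℚ) s = x₁ + x₂ ∧
        algebraMap ℚ (AlgebraicClosure ℚ) p = x₁ * x₂

theorem s51_of_A5 (hA5 : A5Prop) (W : WeierstrassCurve ℤ) (hΔ : W.Δ ≠ 0)
    (hW : W.IsSemistableModel) : W.ModRepIsIrreducible 3 ∨ W.ModRepIsIrreducible 5 := by
  by_contra hcon
  rw [not_or] at hcon
  obtain ⟨h3, h5⟩ := hcon
  obtain ⟨x₃, hx₃⟩ := Fermat.Agent.H37.exists_rat_root_psi3 W hΔ h3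
  obtain ⟨x₁, x₂, hne, hΨ₁, hΨ₂, h12, h21, s, p, hs, hp⟩ := hA5 W hΔ h5
  exact Fermat.Agent.H89.false_of_semistable_of_torsion_data descentX015 W hΔ hW x₃ hx₃
    x₁ x₂ hne hΨ₁ hΨ₂ h12 h21 s p hs hp

end Fermat.Agent.H50
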